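import Mathlib.RingTheory.Valuation.ValuationSubring
import Mathlib.RingTheory.Ideal.Operations
import Mathlib.Algebra.Polynomial.Roots
import Mathlib.Algebra.BigOperators.Fin

/-!
# Counting the points of a branch over a value of the coordinate

`C` is a ring of functions on a branch which has degree at most `N₀` over the line with coordinate
`r`. Points `n i` over `r = c'` with parameters `π i` of order `e i` satisfy `∑ e i ≤ N₀`; if equality
holds these are all the points and each of them is regular.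
-/

set_option autoImplicit false
set_option linter.unusedSectionVars false

noncomputable section

namespace FA.Carayol

open Polynomial

/-- Points on a branch with their parameters. -/
structure BranchPts {L k : Type*} [Field L] [Field k] (C : Subring L) (cm : k →+* L) (r : L)
    (c' : k) (N₀ : ℕ) (ι : Type*) where
  cm_mem : ∀ a, cm a ∈ C
  r_mem : r ∈ C
  inj : Function.Injective (eval₂RingHom cm r)
  dep : ∀ x : Fin (N₀ + 1) → L, ∃ P : Fin (N₀ + 1) → k[X], P ≠ 0 ∧
    ∑ i, (P i).eval₂ cm r * x i = 0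
  pt : ι → Ideal C
  pt_inj : Function.Injective pt
  residue : ∀ i (x : C), ∃ a, x - ⟨cm a, cm_mem a⟩ ∈ pt i
  val : ι → ValuationSubring L
  val_le : ∀ i, ∀ x ∈ C, x ∈ val i
  val_lt : ∀ i (x : C), (val i).valuation (x : L) < 1 ↔ x ∈ pt i
  rho_mem : ∀ i, (⟨r, r_mem⟩ - ⟨cm c', cm_mem c'⟩ : C) ∈ pt i
  par : ι → C
  ord : ι → ℕ
  ord_pos : ∀ i, 0 < ord i
  par_pow : ∀ i, (val i).valuation (par i : L) ^ ord i = (val i).valuation (r - cm c')

namespace BranchPts

variable {L k : Type*} [Field L] [Field k] {C : Subring L} {cm : k →+* L} {r : L} {c' : k} {N₀ : ℕ}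
  {ι : Type*} (B : BranchPts C cm r c' N₀ ι)

/-- The constants inside the ring. -/
def cC : k →+* C := cm.codRestrict C B.cm_mem

/-- The coordinate minus its value. -/
def rho : C := ⟨r, B.r_mem⟩ - B.cC c'

theorem coe_rho : (B.rho : L) = r - cm c' := rfl

theorem coe_cC (a : k) : (B.cC a : L) = cm a := rfl

theorem cC_notMem {a : k} (ha : a ≠ 0) (i : ι) : B.cC a ∉ B.pt i := by
  intro h
  rw [← B.val_lt, B.coe_cC] at h
  have h1 : (B.val i).valuation (cm a⁻¹) ≤ 1 :=
    (ValuationSubring.valuation_le_one_iff _ _).2 (B.val_le i _ (B.cm_mem _))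
  have := mul_lt_one_of_lt_of_le h h1
  rw [← map_mul, ← map_mul, mul_inv_cancel₀ ha, map_one, map_one] at this
  exact lt_irrefl _ this

theorem val_le_one (i : ι) (x : C) : (B.val i).valuation (x : L) ≤ 1 :=
  (ValuationSubring.valuation_le_one_iff _ _).2 (B.val_le i _ x.2)

theorem val_eq_one (i : ι) {x : C} (hx : x ∉ B.pt i) : (B.val i).valuation (x : L) = 1 :=
  le_antisymm (B.val_le_one i x) (not_lt.1 fun h => hx ((B.val_lt i x).1 h))

theorem val_cm (i : ι) {a : k} (ha : a ≠ 0) : (B.val i).valuation (cm a) = 1 := by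
  rw [← B.coe_cC]; exact B.val_eq_one i (B.cC_notMem ha i)

include B in
theorem rho_ne : (r - cm c') ≠ 0 := by
  intro h
  have h2 : eval₂RingHom cm r (X - Polynomial.C c') = eval₂RingHom cm r 0 := by simp [h]
  exact X_sub_C_ne_zero c' (B.inj h2)

theorem rho_lt (i : ι) : (B.val i).valuation (r - cm c') < 1 :=
  B.coe_rho ▸ (B.val_lt i B.rho).2 (B.rho_mem i)

theorem pt_maximal (i : ι) : (B.pt i).IsMaximal := by
  refine Ideal.isMaximal_iff.2 ⟨?_, fun J x hJ hx hxJ => ?_⟩
  · rw [← B.val_lt]; simp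
  obtain ⟨a, ha⟩ := B.residue i x
  change x - B.cC a ∈ B.pt i at ha
  have ha0 : a ≠ 0 := fun h => hx (by simpa [h] using ha)
  have h1 : B.cC a ∈ J := by simpa using J.sub_mem hxJ (hJ ha)
  have := J.mul_mem_left (B.cC a⁻¹) h1
  rwa [← map_mul, inv_mul_cancel₀ ha0, map_one] at this

/-- A relation may be taken nonzero at `c'`. -/
theorem exists_rel (x : Fin (N₀ + 1) → C) : ∃ a : Fin (N₀ + 1) → k, a ≠ 0 ∧
    ∃ z : C, ∑ i, B.cC (a i) * x i = B.rho * z := by
  obtain ⟨P, hP, hsum⟩ := B.dep fun i => (x i : L)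
  let ev : k[X] →+* C := eval₂RingHom B.cC ⟨r, B.r_mem⟩
  have hev : ∀ p, (ev p : L) = p.eval₂ cm r := fun p => by
    show C.subtype (eval₂ B.cC ⟨r, B.r_mem⟩ p) = _
    rw [hom_eval₂]
    rfl
  suffices h : ∀ (d : ℕ) (P : Fin (N₀ + 1) → k[X]), P ≠ 0 → (∀ i, (P i).natDegree ≤ d) →
      ∑ i, ev (P i) * x i = 0 →
      ∃ a : Fin (N₀ + 1) → k, a ≠ 0 ∧ ∃ z : C, ∑ i, B.cC (a i) * x i = B.rho * z by
    refine h _ P hP (fun i => Finset.le_sup (f := fun i => (P i).natDegree) (Finset.mem_univ i))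
      (Subtype.ext ?_)
    push_cast
    simp only [hev]
    exact hsum
  intro d
  induction d with
  | zero =>
    intro P hP hd hs
    refine ⟨fun i => (P i).coeff 0, fun h => hP (funext fun i => ?_), 0, ?_⟩
    · rw [eq_C_of_natDegree_le_zero (hd i), show (P i).coeff 0 = 0 from congrFun h i, map_zero]
      rfl
    · rw [mul_zero, ← hs]
      refine Finset.sum_congr rfl fun i _ => ?_
      conv_rhs => rw [eq_C_of_natDegree_le_zero (hd i)]
      simp [ev]
  | succ d ih =>
    intro P hP hd hs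
    have hsplit : ∀ i, ev (P i) = B.cC ((P i).eval c') +
        B.rho * ev (P i /ₘ (X - Polynomial.C c')) := fun i => by
      conv_lhs => rw [← modByMonic_add_div (P i) (X - Polynomial.C c'), modByMonic_X_sub_C_eq_C_eval]
      simp [ev, rho]
    by_cases h0 : (fun i => (P i).eval c') = 0
    · refine ih (fun i => P i /ₘ (X - Polynomial.C c')) (fun h => hP (funext fun i => ?_))
        (fun i => ?_) ?_
      · rw [← modByMonic_add_div (P i) (X - Polynomial.C c'), modByMonic_X_sub_C_eq_C_eval,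
          show (P i).eval c' = 0 from congrFun h0 i, show P i /ₘ (X - Polynomial.C c') = 0 from congrFun h i]
        simp
      · rw [natDegree_divByMonic _ (monic_X_sub_C c'), natDegree_X_sub_C]
        have := hd i
        omega
      · have hne : B.rho ≠ 0 := fun h => B.rho_ne (congrArg Subtype.val h)
        refine mul_left_cancel₀ hne ?_
        rw [mul_zero, Finset.mul_sum, ← hs]
        refine Finset.sum_congr rfl fun i _ => ?_
        rw [hsplit i, show (P i).eval c' = 0 from congrFun h0 i, map_zero, zero_add, mul_assoc]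
    · refine ⟨_, h0, -∑ i, ev (P i /ₘ (X - Polynomial.C c')) * x i, ?_⟩
      rw [mul_neg, Finset.mul_sum, eq_neg_iff_add_eq_zero, ← Finset.sum_add_distrib, ← hs]
      refine Finset.sum_congr rfl fun i _ => ?_
      rw [hsplit i]; ring

/-- Elements small at a point are nilpotent up to a unit. -/
theorem exists_pow (i : ι) {x : C} (hx : x ∈ B.pt i) :
    ∃ b z : C, b ∉ B.pt i ∧ x ^ N₀ * b = B.rho * z := by
  obtain ⟨a, ha, z, hz⟩ := B.exists_rel fun j => x ^ (j : ℕ)
  classical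
  have hne : (Finset.univ.filter fun j => a j ≠ 0).Nonempty := by
    obtain ⟨j, hj⟩ := Function.ne_iff.1 ha
    exact ⟨j, by simpa using hj⟩
  obtain ⟨j₀, hj₀, hmin⟩ := Finset.exists_min_image _ (fun j : Fin (N₀ + 1) => (j : ℕ)) hne
  replace hj₀ : a j₀ ≠ 0 := (Finset.mem_filter.1 hj₀).2
  set b := ∑ j, B.cC (a j) * x ^ ((j : ℕ) - (j₀ : ℕ))
  have hsum : x ^ (j₀ : ℕ) * b = B.rho * z := by
    rw [← hz, Finset.mul_sum]
    refine Finset.sum_congr rfl fun j _ => ?_
    by_cases haj : a j = 0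
    · simp [haj]
    · rw [mul_left_comm, ← pow_add, Nat.add_sub_cancel' (hmin j (by simpa using haj))]
  refine ⟨b, x ^ (N₀ - j₀) * z, fun hb => ?_, ?_⟩
  · have hrest : ∀ j ∈ Finset.univ.erase j₀,
        B.cC (a j) * x ^ ((j : ℕ) - (j₀ : ℕ)) ∈ B.pt i := fun j hj => by
      by_cases haj : a j = 0
      · simp [haj]
      · have h1 := hmin j (by simpa using haj)
        have h2 : (j : ℕ) ≠ (j₀ : ℕ) := fun h => (Finset.mem_erase.1 hj).1 (Fin.ext h)
        exact Ideal.mul_mem_left _ _ (Ideal.pow_mem_of_mem _ hx _ (by omega))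
    have hb' : b = B.cC (a j₀) + ∑ j ∈ Finset.univ.erase j₀,
        B.cC (a j) * x ^ ((j : ℕ) - (j₀ : ℕ)) := by
      simp only [b]
      rw [← Finset.add_sum_erase _ _ (Finset.mem_univ j₀), Nat.sub_self, pow_zero, mul_one]
    rw [hb'] at hb
    exact B.cC_notMem hj₀ i ((Submodule.add_mem_iff_left _ (Submodule.sum_mem _ hrest)).1 hb)
  · conv_lhs => rw [← Nat.sub_add_cancel (Nat.le_of_lt_succ j₀.2), pow_add, mul_assoc, hsum]
    ring

theorem val_rho_mul_le (i : ι) (z : C) :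
    (B.val i).valuation ((B.rho * z : C) : L) ≤ (B.val i).valuation (r - cm c') := by
  rw [Subring.coe_mul, map_mul, B.coe_rho]
  exact mul_le_of_le_one_right' (B.val_le_one i z)

/-- An element small at a point has a high power smaller than `r - c'`. -/
theorem pow_small (i : ι) {x : C} (hx : x ∈ B.pt i) :
    (B.val i).valuation ((x ^ (N₀ + 1) : C) : L) < (B.val i).valuation (r - cm c') := by
  obtain ⟨b, z, hb, h⟩ := B.exists_pow i hx
  have hpos : 0 < (B.val i).valuation (r - cm c') :=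
    zero_lt_iff.2 ((Valuation.ne_zero_iff _).2 B.rho_ne)
  have h1 : (B.val i).valuation ((x ^ N₀ : C) : L) ≤ (B.val i).valuation (r - cm c') := by
    have := congrArg (fun t : C => (B.val i).valuation (t : L)) h
    simp only [Subring.coe_mul, map_mul, B.val_eq_one i hb, mul_one] at this
    rw [this, ← map_mul]
    exact B.val_rho_mul_le i z
  rw [pow_succ, Subring.coe_mul, map_mul]
  calc _ ≤ (B.val i).valuation (r - cm c') * (B.val i).valuation (x : L) :=
        mul_le_mul_left h1 _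
    _ < _ := mul_lt_of_lt_one_right hpos ((B.val_lt i x).2 hx)

/-- A combination of powers of the parameter of size at most `r - c'` is zero. -/
theorem coeff_eq_zero (i : ι) (a : Fin (B.ord i) → k)
    (h : (B.val i).valuation (∑ j, cm (a j) * (B.par i : L) ^ (j : ℕ)) ≤
      (B.val i).valuation (r - cm c')) : a = 0 := by
  classical
  by_contra ha
  set v := (B.val i).valuation
  set p := v (B.par i : L)
  have hp1 : p < 1 := by
    by_contra hp
    exact (B.rho_lt i).not_ge (B.par_pow i ▸ one_le_pow_of_one_le' (not_lt.1 hp) _)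
  have hp0 : 0 < p := zero_lt_iff.2 fun h0 => by
    have := B.par_pow i
    rw [show v (B.par i : L) = 0 from h0, zero_pow (B.ord_pos i).ne'] at this
    exact (Valuation.ne_zero_iff _).2 B.rho_ne this.symm
  have hne : (Finset.univ.filter fun j => a j ≠ 0).Nonempty := by
    obtain ⟨j, hj⟩ := Function.ne_iff.1 ha
    exact ⟨j, by simpa using hj⟩
  obtain ⟨j₀, hj₀, hmin⟩ := Finset.exists_min_image _ (fun j : Fin (B.ord i) => (j : ℕ)) hne
  replace hj₀ : a j₀ ≠ 0 := (Finset.mem_filter.1 hj₀).2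
  have hlt : v (∑ j ∈ Finset.univ.erase j₀, cm (a j) * (B.par i : L) ^ (j : ℕ)) <
      v (cm (a j₀) * (B.par i : L) ^ (j₀ : ℕ)) := by
    rw [map_mul, map_pow, B.val_cm i hj₀, one_mul]
    refine Valuation.map_sum_lt _ (pow_ne_zero _ hp0.ne') fun j hj => ?_
    by_cases haj : a j = 0
    · rw [haj, map_zero, zero_mul, map_zero]
      exact pow_pos hp0 _
    rw [map_mul, map_pow, B.val_cm i haj, one_mul]
    refine pow_lt_pow_right_of_lt_one₀ hp0 hp1 (lt_of_le_of_ne (hmin j (by simpa using haj)) ?_)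
    exact fun he => (Finset.mem_erase.1 hj).1 (Fin.ext he.symm)
  rw [← Finset.add_sum_erase _ _ (Finset.mem_univ j₀), Valuation.map_add_eq_of_lt_left _ hlt, map_mul,
    map_pow, B.val_cm i hj₀, one_mul, ← B.par_pow i] at h
  exact h.not_gt (pow_lt_pow_right_of_lt_one₀ hp0 hp1 j₀.2)

variable [Fintype ι]

/-- Separating elements, small at one more ideal. -/
theorem exists_sep (n : Option (Ideal C)) (hn : ∀ I ∈ n, I.IsMaximal ∧ ∀ i, I ≠ B.pt i) :
    ∃ y : ι → C, ∀ i, y i - 1 ∈ B.pt i ∧ (∀ j, j ≠ i → y i ∈ B.pt j) ∧ ∀ I ∈ n, y i ∈ I := by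
  classical
  have h : ∀ (i : ι) (I : Ideal C), I.IsMaximal → I ≠ B.pt i →
      ∃ u ∈ I, u - 1 ∈ B.pt i := fun i I hI hne => by
    obtain ⟨a, ha, b, hb, hab⟩ := Submodule.mem_sup.1 (show (1 : C) ∈ I ⊔ B.pt i by
      rw [Ideal.IsMaximal.coprime_of_ne hI (B.pt_maximal i) hne]; trivial)
    exact ⟨a, ha, by rw [← hab, sub_add_cancel_left]; exact (B.pt i).neg_mem hb⟩
  choose u hu hu1 using h
  refine ⟨fun i => (n.elim 1 fun I => if hI : I.IsMaximal ∧ I ≠ B.pt i then u i I hI.1 hI.2 else 1) *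
    ∏ j, if hj : j ≠ i then u i (B.pt j) (B.pt_maximal j) (fun he => hj (B.pt_inj he)) else 1,
    fun i => ⟨?_, fun j hj => ?_, fun I hI => ?_⟩⟩
  · have := B.pt_maximal i
    rw [← Ideal.Quotient.eq, map_mul, map_prod, map_one]
    have hone : ∀ x, x - 1 ∈ B.pt i → Ideal.Quotient.mk (B.pt i) x = 1 := fun x hx => by
      rw [← map_one (Ideal.Quotient.mk (B.pt i))]; exact Ideal.Quotient.eq.2 hx
    rw [Finset.prod_eq_one fun j _ => ?_, mul_one]
    · cases n with
      | none => exact map_one _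
      | some I =>
        simp only [Option.elim_some]
        split_ifs
        · exact hone _ (hu1 _ _ _ _)
        · exact map_one _
    · split_ifs
      · exact hone _ (hu1 _ _ _ _)
      · exact map_one _
  · exact Ideal.mul_mem_left _ _ (Ideal.mem_of_dvd _ (Finset.dvd_prod_of_mem _ (Finset.mem_univ j))
      (by rw [dif_pos hj]; exact hu _ _ _ _))
  · refine Ideal.mul_mem_right _ _ ?_
    obtain rfl := Option.mem_def.1 hI
    simp only [Option.elim_some]
    rw [dif_pos ⟨(hn I rfl).1, (hn I rfl).2 i⟩]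
    exact hu _ _ _ _

/-- Separated powers of the parameters are independent modulo `r - c'`. -/
theorem indep {y : ι → C} (hy : ∀ i, y i - 1 ∈ B.pt i ∧ ∀ j, j ≠ i → y i ∈ B.pt j)
    (a : (Σ i, Fin (B.ord i)) → k) (z : C)
    (h : ∑ p, B.cC (a p) * (y p.1 ^ (N₀ + 1) * B.par p.1 ^ (p.2 : ℕ)) = B.rho * z) :
    a = 0 := by
  classical
  funext ⟨i, j⟩
  refine congrFun (B.coeff_eq_zero i (fun j => a ⟨i, j⟩) ?_) j
  rw [Fintype.sum_sigma, ← Finset.add_sum_erase _ _ (Finset.mem_univ i)] at h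
  set S : C := ∑ j, B.cC (a ⟨i, j⟩) * B.par i ^ (j : ℕ)
  set rest := ∑ i' ∈ Finset.univ.erase i, ∑ j, B.cC (a ⟨i', j⟩) *
    (y i' ^ (N₀ + 1) * B.par i' ^ (j : ℕ))
  have hS : S * y i ^ (N₀ + 1) + rest = B.rho * z := by
    rw [← h]
    congr 1
    simp only [S, Finset.sum_mul]
    exact Finset.sum_congr rfl fun j _ => by ring
  have hy1 : (B.val i).valuation ((y i : C) : L) = 1 := B.val_eq_one i fun hc => by
    have h1 : (1 : C) ∈ B.pt i := by simpa using (B.pt i).sub_mem hc (hy i).1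
    exact (B.pt_maximal i).ne_top ((Ideal.eq_top_iff_one _).2 h1)
  have hrest : (B.val i).valuation (rest : L) ≤ (B.val i).valuation (r - cm c') := by
    simp only [rest]
    push_cast
    refine Valuation.map_sum_le _ fun i' hi' => Valuation.map_sum_le _ fun j _ => ?_
    rw [map_mul, map_mul]
    refine (mul_le_of_le_one_left' (B.val_le_one i _)).trans ?_
    refine (mul_le_of_le_one_right' ?_).trans (le_of_lt ?_)
    · rw [← Subring.coe_pow]; exact B.val_le_one i _
    · rw [← Subring.coe_pow]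
      exact B.pow_small i ((hy i').2 i (Ne.symm (Finset.mem_erase.1 hi').1))
  have hScoe : ∑ j, cm (a ⟨i, j⟩) * (B.par i : L) ^ (j : ℕ) = (S : L) := by
    simp [S, coe_cC]
  rw [hScoe, ← mul_one ((B.val i).valuation _), ← one_pow (N₀ + 1), ← hy1, ← map_pow, ← map_mul,
    show (S : L) * (y i : L) ^ (N₀ + 1) = ((B.rho * z : C) : L) - rest by rw [← hS]; simp]
  exact Valuation.map_sub_le _ (B.val_rho_mul_le i z) hrest

/-- **The orders add up to at most the degree.** -/
theorem sum_ord_le : ∑ i, B.ord i ≤ N₀ := by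
  classical
  by_contra hgt
  obtain ⟨y, hy⟩ := B.exists_sep none (by simp)
  have hy' : ∀ i, y i - 1 ∈ B.pt i ∧ ∀ j, j ≠ i → y i ∈ B.pt j := fun i => ⟨(hy i).1, (hy i).2.1⟩
  have hc : Fintype.card (Fin (N₀ + 1)) ≤ Fintype.card (Σ i, Fin (B.ord i)) := by
    simp only [Fintype.card_fin, Fintype.card_sigma]; omega
  obtain ⟨f⟩ := Function.Embedding.nonempty_of_card_le hc
  set b : (Σ i, Fin (B.ord i)) → C := fun p => y p.1 ^ (N₀ + 1) * B.par p.1 ^ (p.2 : ℕ)
  obtain ⟨a, ha, z, hz⟩ := B.exists_rel (b ∘ f)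
  refine ha (funext fun t => ?_)
  have h0 := B.indep hy' (Function.extend f a 0) z (by
    rw [← hz, ← Finset.sum_subset (Finset.subset_univ (Finset.univ.map f)) fun p _ hp => ?_,
      Finset.sum_map]
    · exact Finset.sum_congr rfl fun t _ => by rw [f.injective.extend_apply]; rfl
    · rw [Function.extend_apply' _ _ _ (fun ⟨t, ht⟩ => hp (ht ▸ Finset.mem_map_of_mem f
        (Finset.mem_univ t))), Pi.zero_apply, map_zero, zero_mul])
  have := congrFun h0 (f t)
  rwa [f.injective.extend_apply] at this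

variable (hfull : N₀ ≤ ∑ i, B.ord i)
include hfull

/-- With enough points everything is a combination modulo `r - c'`. -/
theorem exists_comb {y : ι → C} (hy : ∀ i, y i - 1 ∈ B.pt i ∧ ∀ j, j ≠ i → y i ∈ B.pt j) (x : C) :
    ∃ (a : (Σ i, Fin (B.ord i)) → k) (z : C),
      x = ∑ p, B.cC (a p) * (y p.1 ^ (N₀ + 1) * B.par p.1 ^ (p.2 : ℕ)) + B.rho * z := by
  classical
  have hcard : Fintype.card (Σ i, Fin (B.ord i)) = N₀ := by
    have := B.sum_ord_le
    simp only [Fintype.card_sigma, Fintype.card_fin]; omega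
  let e : Fin N₀ ≃ (Σ i, Fin (B.ord i)) := (Fintype.equivFinOfCardEq hcard).symm
  set b : (Σ i, Fin (B.ord i)) → C := fun p => y p.1 ^ (N₀ + 1) * B.par p.1 ^ (p.2 : ℕ)
  obtain ⟨a, ha, z, hz⟩ := B.exists_rel (Fin.cons x (b ∘ e))
  rw [Fin.sum_univ_succ] at hz
  simp only [Fin.cons_zero, Fin.cons_succ, Function.comp_apply] at hz
  by_cases ha0 : a 0 = 0
  · exfalso
    refine ha (funext fun t => ?_)
    have h0 := B.indep hy (fun p => a (e.symm p).succ) z (by
      rw [ha0, map_zero, zero_mul, zero_add] at hz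
      rw [← hz, ← e.sum_comp]
      exact Finset.sum_congr rfl fun t _ => by simp [b])
    induction t using Fin.cases with
    | zero => exact ha0
    | succ t => simpa using congrFun h0 (e t)
  · refine ⟨fun p => -(a 0)⁻¹ * a (e.symm p).succ, B.cC (a 0)⁻¹ * z, ?_⟩
    have hsum : ∑ p, B.cC (-(a 0)⁻¹ * a (e.symm p).succ) * b p =
        -(B.cC (a 0)⁻¹ * ∑ t, B.cC (a t.succ) * b (e t)) := by
      rw [Finset.mul_sum, ← Finset.sum_neg_distrib, ← e.sum_comp]
      exact Finset.sum_congr rfl fun t _ => by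
        rw [Equiv.symm_apply_apply, map_mul, map_neg]; ring
    have hu : B.cC (a 0)⁻¹ * B.cC (a 0) = 1 := by rw [← map_mul, inv_mul_cancel₀ ha0, map_one]
    show x = ∑ p, B.cC (-(a 0)⁻¹ * a (e.symm p).succ) * b p + B.rho * (B.cC (a 0)⁻¹ * z)
    rw [hsum]
    linear_combination (B.cC (a 0)⁻¹) * hz - x * hu

/-- **There are no other points.** -/
theorem eq_pt {I : Ideal C} (hI : I.IsMaximal) (hrho : B.rho ∈ I) : ∃ i, I = B.pt i := by
  classical
  by_contra hne
  push Not at hne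
  obtain ⟨y, hy⟩ := B.exists_sep (some I) (fun J hJ => by
    obtain rfl := Option.mem_def.1 hJ |> Option.some.inj |>.symm
    exact ⟨hI, hne⟩)
  obtain ⟨a, z, h⟩ := B.exists_comb hfull (fun i => ⟨(hy i).1, (hy i).2.1⟩) 1
  refine hI.ne_top ((Ideal.eq_top_iff_one _).2 ?_)
  rw [h]
  exact I.add_mem (I.sum_mem fun p _ => I.mul_mem_left _ (I.mul_mem_right _
    (Ideal.pow_mem_of_mem _ ((hy p.1).2.2 I rfl) _ (Nat.succ_pos _)))) (I.mul_mem_right _ hrho)

/-- At each point everything small is divisible by the parameter. -/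
theorem exists_par_mul (i : ι) {x : C} (hx : x ∈ B.pt i) :
    ∃ s w : C, s ∉ B.pt i ∧ x * s = B.par i * w := by
  classical
  obtain ⟨y, hy⟩ := B.exists_sep none (by simp)
  have hy' : ∀ i, y i - 1 ∈ B.pt i ∧ ∀ j, j ≠ i → y i ∈ B.pt j := fun i => ⟨(hy i).1, (hy i).2.1⟩
  have hprime := (B.pt_maximal i).isPrime
  have hb' : ∀ j, ∃ b z : C, b ∉ B.pt i ∧ (j ≠ i → y j ^ N₀ * b = B.rho * z) := fun j => by
    by_cases hj : j = i
    · exact ⟨1, 0, fun h => hprime.ne_top ((Ideal.eq_top_iff_one _).2 h), fun h => absurd hj h⟩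
    · obtain ⟨b, z, hb, h⟩ := B.exists_pow i ((hy' j).2 i (Ne.symm hj))
      exact ⟨b, z, hb, fun _ => h⟩
  choose b zb hb hbz using hb'
  set bb := ∏ j, b j
  have hbb : bb ∉ B.pt i := fun h => by
    obtain ⟨j, -, hj⟩ := (hprime.prod_mem_iff).1 h
    exact hb j hj
  -- other terms lie in the multiples of `r - c'`
  have split : ∀ (a : (Σ i, Fin (B.ord i)) → k), ∃ w : C,
      (∑ p, B.cC (a p) * (y p.1 ^ (N₀ + 1) * B.par p.1 ^ (p.2 : ℕ))) * bb =
        (∑ j, B.cC (a ⟨i, j⟩) * B.par i ^ (j : ℕ)) * (y i ^ (N₀ + 1) * bb) + B.rho * w := by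
    intro a
    have hdiv : ∀ i' ∈ Finset.univ.erase i, B.rho ∣
        (∑ j, B.cC (a ⟨i', j⟩) * (y i' ^ (N₀ + 1) * B.par i' ^ (j : ℕ))) * bb := fun i' hi' => by
      obtain ⟨b₁, hb₁⟩ : b i' ∣ bb := Finset.dvd_prod_of_mem _ (Finset.mem_univ i')
      rw [Finset.sum_mul]
      refine Finset.dvd_sum fun j _ => ⟨zb i' * (B.cC (a ⟨i', j⟩) * y i' * B.par i' ^ (j : ℕ) * b₁), ?_⟩
      rw [hb₁]
      linear_combination (B.cC (a ⟨i', j⟩) * y i' * B.par i' ^ (j : ℕ) * b₁) *
        hbz i' (Finset.mem_erase.1 hi').1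
    obtain ⟨w, hw⟩ := Finset.dvd_sum hdiv
    refine ⟨w, ?_⟩
    rw [Fintype.sum_sigma, ← Finset.add_sum_erase _ _ (Finset.mem_univ i), add_mul, ← hw,
      ← Finset.sum_mul]
    congr 1
    simp only [Finset.sum_mul]
    exact Finset.sum_congr rfl fun j _ => by ring
  -- the power of the parameter
  obtain ⟨a, z, ha⟩ := B.exists_comb hfull hy' (B.par i ^ B.ord i)
  obtain ⟨w, hw⟩ := split a
  have hy1 : (B.val i).valuation (((y i ^ (N₀ + 1) * bb : C)) : L) = 1 :=
    B.val_eq_one i fun h => by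
      rcases hprime.mem_or_mem h with h1 | h1
      · have h2 := hprime.mem_of_pow_mem _ h1
        have h3 : (1 : C) ∈ B.pt i := by simpa using (B.pt i).sub_mem h2 (hy' i).1
        exact hprime.ne_top ((Ideal.eq_top_iff_one _).2 h3)
      · exact hbb h1
  have hmain : B.par i ^ B.ord i * bb =
      (∑ j, B.cC (a ⟨i, j⟩) * B.par i ^ (j : ℕ)) * (y i ^ (N₀ + 1) * bb) +
        B.rho * (w + z * bb) := by
    rw [ha, add_mul, hw]; ring
  have ha0 : (fun j => a ⟨i, j⟩) = 0 := by
    refine B.coeff_eq_zero i _ ?_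
    rw [show ∑ j, cm (a ⟨i, j⟩) * (B.par i : L) ^ (j : ℕ) =
      ((∑ j, B.cC (a ⟨i, j⟩) * B.par i ^ (j : ℕ) : C) : L) by simp [coe_cC],
      ← mul_one ((B.val i).valuation _), ← hy1, ← map_mul, ← Subring.coe_mul,
      eq_sub_of_add_eq hmain.symm, AddSubgroupClass.coe_sub]
    refine Valuation.map_sub_le _ ?_ (B.val_rho_mul_le i _)
    rw [Subring.coe_mul, map_mul, Subring.coe_pow, map_pow, B.par_pow]
    exact mul_le_of_le_one_right' (B.val_le_one i _)
  set g := w + z * bb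
  have hpi : B.par i ^ B.ord i * bb = B.rho * g := by
    rw [hmain]
    simp [show ∀ j, a ⟨i, j⟩ = 0 from fun j => congrFun ha0 j]
  have hg : g ∉ B.pt i := fun hg => by
    have h1 := congrArg (fun t : C => (B.val i).valuation (t : L)) hpi
    simp only [Subring.coe_mul, map_mul, Subring.coe_pow, map_pow, B.par_pow, B.coe_rho,
      B.val_eq_one i hbb] at h1
    exact ((B.val_lt i g).2 hg).ne
      (mul_left_cancel₀ ((Valuation.ne_zero_iff _).2 B.rho_ne) h1).symm
  -- the element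
  obtain ⟨a', z', ha'⟩ := B.exists_comb hfull hy' x
  obtain ⟨w', hw'⟩ := split a'
  set S' := ∑ j, B.cC (a' ⟨i, j⟩) * B.par i ^ (j : ℕ)
  have hxb : x * bb = S' * (y i ^ (N₀ + 1) * bb) + B.rho * (w' + z' * bb) := by
    rw [ha', add_mul, hw']; ring
  have h0 : a' ⟨i, ⟨0, B.ord_pos i⟩⟩ = 0 := by
    by_contra h0
    have hmem : S' * (y i ^ (N₀ + 1) * bb) ∈ B.pt i := by
      rw [eq_sub_of_add_eq hxb.symm]
      exact (B.pt i).sub_mem ((B.pt i).mul_mem_right _ hx) ((B.pt i).mul_mem_right _ (B.rho_mem i))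
    rcases hprime.mem_or_mem hmem with h1 | h1
    · have hp : B.par i ∈ B.pt i := (B.val_lt i _).1 (not_le.1 fun hle =>
        (B.rho_lt i).not_ge (B.par_pow i ▸ one_le_pow_of_one_le' hle _))
      simp only [S'] at h1
      rw [← Finset.add_sum_erase _ _ (Finset.mem_univ (⟨0, B.ord_pos i⟩ : Fin (B.ord i)))] at h1
      simp only [pow_zero, mul_one] at h1
      refine B.cC_notMem h0 i ((Submodule.add_mem_iff_left _
        (Submodule.sum_mem _ fun j hj => ?_)).1 h1)
      exact Ideal.mul_mem_left _ _ (Ideal.pow_mem_of_mem _ hp _ (Nat.pos_of_ne_zero fun h2 =>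
        (Finset.mem_erase.1 hj).1 (Fin.ext h2)))
    · exact ((B.val_lt i _).2 h1).ne hy1
  have hS : S' = B.par i * ∑ j, B.cC (a' ⟨i, j⟩) * B.par i ^ ((j : ℕ) - 1) := by
    rw [Finset.mul_sum]
    refine Finset.sum_congr rfl fun j _ => ?_
    rcases Nat.eq_zero_or_pos (j : ℕ) with hj | hj
    · rw [show j = (⟨0, B.ord_pos i⟩ : Fin (B.ord i)) from Fin.ext hj, h0]; simp
    · rw [mul_left_comm, ← pow_succ', Nat.sub_add_cancel hj]
  refine ⟨bb * g, (∑ j, B.cC (a' ⟨i, j⟩) * B.par i ^ ((j : ℕ) - 1)) * (y i ^ (N₀ + 1) * bb) * g +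
    B.par i ^ (B.ord i - 1) * bb * (w' + z' * bb), fun h => ?_, ?_⟩
  · exact (hprime.mem_or_mem h).elim hbb hg
  · have hp : B.par i * B.par i ^ (B.ord i - 1) = B.par i ^ B.ord i := by
      rw [← pow_succ', Nat.sub_add_cancel (B.ord_pos i)]
    rw [← mul_assoc, hxb, hS]
    linear_combination -(w' + z' * bb) * hpi - (bb * (w' + z' * bb)) * hp

omit hfull in
theorem exists_lower_bound (i : ι) {x : C} (hx : x ≠ 0) (P : Fin (N₀ + 1) → k[X]) (hP : P ≠ 0)
    (hsum : ∑ j, (P j).eval₂ cm r * (x : L) ^ (j : ℕ) = 0) :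
    ∃ D : ℕ, (B.val i).valuation (r - cm c') ^ D ≤ (B.val i).valuation (x : L) := by
  classical
  set v := (B.val i).valuation
  have hx0 : (x : L) ≠ 0 := fun h => hx (Subtype.ext h)
  have hval : ∀ p : k[X], p ≠ 0 →
      v (p.eval₂ cm r) = v (r - cm c') ^ p.rootMultiplicity c' := fun p hp => by
    obtain ⟨Q, hQ, hroot⟩ := p.exists_eq_pow_rootMultiplicity_mul_and_not_dvd hp c'
    conv_lhs => rw [hQ]
    rw [eval₂_mul, map_mul, eval₂_pow, map_pow, eval₂_sub, eval₂_X, eval₂_C]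
    suffices h : v (Q.eval₂ cm r) = 1 by rw [h, mul_one]
    have hQ0 : Q.eval c' ≠ 0 := fun h => hroot (dvd_iff_isRoot.2 h)
    set ev : k[X] →+* C := eval₂RingHom B.cC ⟨r, B.r_mem⟩
    have hev : (ev Q : L) = Q.eval₂ cm r := by
      show C.subtype (eval₂ B.cC ⟨r, B.r_mem⟩ Q) = _
      rw [hom_eval₂]; rfl
    rw [← hev]
    refine B.val_eq_one i fun h => B.cC_notMem hQ0 i ?_
    have h2 : ev Q = B.cC (Q.eval c') + B.rho * ev (Q /ₘ (Polynomial.X - Polynomial.C c')) := by
      conv_lhs => rw [← modByMonic_add_div Q (Polynomial.X - Polynomial.C c'), modByMonic_X_sub_C_eq_C_eval]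
      simp [ev, rho]
    rw [h2] at h
    exact (Submodule.add_mem_iff_left _ ((B.pt i).mul_mem_right _ (B.rho_mem i))).1 h
  have hne : (Finset.univ.filter fun j => P j ≠ 0).Nonempty := by
    obtain ⟨j, hj⟩ := Function.ne_iff.1 hP
    exact ⟨j, by simpa using hj⟩
  obtain ⟨j₀, hj₀, hmin⟩ := Finset.exists_min_image _ (fun j : Fin (N₀ + 1) => (j : ℕ)) hne
  replace hj₀ : P j₀ ≠ 0 := (Finset.mem_filter.1 hj₀).2
  set d₀ := (P j₀).rootMultiplicity c'
  refine ⟨d₀, not_lt.1 fun hlt => ?_⟩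
  have hr0 : v (r - cm c') ≠ 0 := (Valuation.ne_zero_iff _).2 B.rho_ne
  have hv0 : v ((P j₀).eval₂ cm r * (x : L) ^ (j₀ : ℕ)) ≠ 0 := by
    rw [map_mul, map_pow, hval _ hj₀]
    exact mul_ne_zero (pow_ne_zero _ hr0) (pow_ne_zero _ ((Valuation.ne_zero_iff _).2 hx0))
  have hsmall : v (∑ j ∈ Finset.univ.erase j₀, (P j).eval₂ cm r * (x : L) ^ (j : ℕ)) <
      v ((P j₀).eval₂ cm r * (x : L) ^ (j₀ : ℕ)) := by
    refine Valuation.map_sum_lt _ hv0 fun j hj => ?_
    by_cases hPj : P j = 0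
    · rw [hPj, eval₂_zero, zero_mul, map_zero]; exact zero_lt_iff.2 hv0
    have hlt' : (j₀ : ℕ) < j := lt_of_le_of_ne (hmin j (by simpa using hPj))
      fun he => (Finset.mem_erase.1 hj).1 (Fin.ext he.symm)
    rw [map_mul, map_mul, map_pow, map_pow, hval _ hPj, hval _ hj₀]
    obtain ⟨t, ht⟩ := Nat.exists_eq_add_of_lt hlt'
    rw [show (j : ℕ) = (j₀ : ℕ) + (t + 1) by omega, pow_add, ← mul_assoc, mul_comm _ (v (x : L) ^ (j₀ : ℕ)),
      mul_comm (v (r - cm c') ^ d₀), mul_assoc]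
    refine mul_lt_mul_of_pos_left ?_ (pow_pos (zero_lt_iff.2 ((Valuation.ne_zero_iff _).2 hx0)) _)
    refine lt_of_le_of_lt (mul_le_of_le_one_left' (pow_le_one₀ zero_le (B.rho_lt i).le)) ?_
    exact lt_of_le_of_lt (pow_le_of_le_one zero_le (B.val_le_one i x) (Nat.succ_ne_zero t)) hlt
  rw [← Finset.add_sum_erase _ _ (Finset.mem_univ j₀)] at hsum
  have := Valuation.map_add_eq_of_lt_left _ hsmall
  rw [hsum, map_zero] at this
  exact hv0 this.symm

/-- **Each point is regular: an element is a unit times a power of the parameter.** -/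
theorem exists_unit_mul (i : ι) {x : C} (hx : x ≠ 0) :
    ∃ (j : ℕ) (s w : C), s ∉ B.pt i ∧ w ∉ B.pt i ∧ x * s = B.par i ^ j * w := by
  have hprime := (B.pt_maximal i).isPrime
  set v := (B.val i).valuation
  -- a lower bound
  obtain ⟨D, hD⟩ : ∃ D : ℕ, v (r - cm c') ^ D ≤ v (x : L) := by
    obtain ⟨P, hP, hsum⟩ := B.dep fun j => (x : L) ^ (j : ℕ)
    exact B.exists_lower_bound i hx P hP hsum
  set n := B.ord i * D
  suffices h : ∀ m : ℕ, (∃ (j : ℕ) (s w : C), s ∉ B.pt i ∧ w ∉ B.pt i ∧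
      x * s = B.par i ^ j * w) ∨ ∃ s w : C, s ∉ B.pt i ∧ x * s = B.par i ^ m * w by
    rcases h (n + 1) with h | ⟨s, w, hs, h⟩
    · exact h
    · exfalso
      have h1 := congrArg (fun t : C => v (t : L)) h
      simp only [Subring.coe_mul, map_mul, Subring.coe_pow, map_pow] at h1
      rw [show v (s : L) = 1 from B.val_eq_one i hs, mul_one] at h1
      have hp1 : v (B.par i : L) < 1 := not_le.1 fun hle =>
        (B.rho_lt i).not_ge (B.par_pow i ▸ one_le_pow_of_one_le' hle _)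
      have hp0 : 0 < v (B.par i : L) := zero_lt_iff.2 fun h0 => by
        have := B.par_pow i
        rw [show (B.val i).valuation (B.par i : L) = 0 from h0, zero_pow (B.ord_pos i).ne'] at this
        exact (Valuation.ne_zero_iff _).2 B.rho_ne this.symm
      rw [← show v (B.par i : L) ^ B.ord i = v (r - cm c') from B.par_pow i, ← pow_mul] at hD
      have := (h1 ▸ hD).trans (mul_le_of_le_one_right' (B.val_le_one i w))
      exact this.not_gt (pow_lt_pow_right_of_lt_one₀ hp0 hp1 (Nat.lt_succ_self n))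
  intro m
  induction m with
  | zero => exact Or.inr ⟨1, x, fun h => hprime.ne_top ((Ideal.eq_top_iff_one _).2 h), by simp⟩
  | succ m ih =>
    rcases ih with h | ⟨s, w, hs, h⟩
    · exact Or.inl h
    by_cases hw : w ∈ B.pt i
    · obtain ⟨s', w', hs', h'⟩ := B.exists_par_mul hfull i hw
      refine Or.inr ⟨s * s', w', fun hh => (hprime.mem_or_mem hh).elim hs hs', ?_⟩
      rw [← mul_assoc, h, pow_succ, mul_assoc, h', mul_assoc]
    · exact Or.inl ⟨m, s, w, hs, hw, h⟩

end BranchPts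

end FA.Carayol

end
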