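import Fermat.Agent.Carayol.Defs
import Mathlib.RingTheory.UniqueFactorizationDomain.Kaplansky
import Mathlib.RingTheory.Nakayama

/-!
# A local domain with two parameters is factorial
-/

set_option autoImplicit false
set_option linter.style.haveILetI false
set_option linter.unusedSectionVars false

noncomputable section

namespace FA.Carayol

variable {R : Type} [CommRing R] [IsDomain R] [IsNoetherianRing R] [IsLocalRing R] {u w : R}
  (hm : IsLocalRing.maximalIdeal R = Ideal.span {u, w})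

include hm

/-- Modulo `u` every element is a unit times a power of `w`. -/
theorem exists_eq_unit_mul_pow_mod {x : R} (hx : ¬ u ∣ x) :
    ∃ (k : ℕ) (e c : R), IsUnit e ∧ x = e * w ^ k + u * c := by
  by_contra hno
  push Not at hno
  let good : R → Prop := fun y => ∃ (k : ℕ) (e c : R), IsUnit e ∧ y = e * w ^ k + u * c
  have step : ∀ y : {y : R // ¬ u ∣ y ∧ ¬ good y}, ∃ y' : {y : R // ¬ u ∣ y ∧ ¬ good y},
      ∃ a, y.1 = w * y'.1 + u * a := by
    rintro ⟨y, hy, hyg⟩
    have hym : y ∈ IsLocalRing.maximalIdeal R := by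
      rw [IsLocalRing.mem_maximalIdeal]
      exact fun hu => hyg ⟨0, y, 0, hu, by simp⟩
    rw [hm, Ideal.mem_span_pair] at hym
    obtain ⟨a, b, hab⟩ := hym
    refine ⟨⟨b, fun ⟨c, hc⟩ => hy ⟨a + w * c, by rw [← hab, hc]; ring⟩, ?_⟩, a, ?_⟩
    · rintro ⟨k, e, c, he, hb⟩
      exact hyg ⟨k + 1, e, a + w * c, he, by rw [← hab, hb]; ring⟩
    · show y = w * b + u * a
      rw [← hab]; ring
  choose f a ha using step
  let s : ℕ → {y : R // ¬ u ∣ y ∧ ¬ good y} := fun n =>
    f^[n] ⟨x, hx, fun ⟨k, e, c, he, h⟩ => hno k e c he h⟩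
  have hs : ∀ n, (s n).1 = w * (s (n + 1)).1 + u * a (s n) := fun n => by
    show (s n).1 = w * (f^[n + 1] _).1 + _
    rw [Function.iterate_succ_apply']
    exact ha _
  let I : ℕ →o Ideal R := ⟨fun n => Ideal.span {u, (s n).1}, monotone_nat_of_le_succ fun n => by
    rw [Ideal.span_le]
    rintro z (rfl | rfl)
    · exact Ideal.subset_span (Or.inl rfl)
    · exact Ideal.mem_span_pair.2 ⟨a (s n), w, by rw [hs n]; ring⟩⟩
  obtain ⟨n, hn⟩ := monotone_stabilizes_iff_noetherian.2 inferInstance I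
  have hmem : (s (n + 1)).1 ∈ I n := by
    rw [hn (n + 1) n.le_succ]
    exact Ideal.subset_span (Or.inr rfl)
  obtain ⟨α, β, hαβ⟩ := Ideal.mem_span_pair.1 hmem
  have hw : w ∈ IsLocalRing.maximalIdeal R := by rw [hm]; exact Ideal.subset_span (Or.inr rfl)
  have hu : IsUnit (1 - w * β) :=
    (IsLocalRing.isUnit_or_isUnit_one_sub_self (w * β)).resolve_left fun h =>
      (IsLocalRing.mem_maximalIdeal _).1 (Ideal.mul_mem_right β _ hw) h
  exact (s n).2.1 ((hu.dvd_mul_left).1 ⟨w * α + a (s n), by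
    linear_combination hs n - w * hαβ⟩)

theorem prime_of_param (hu : u ≠ 0) (hw : ∀ k : ℕ, ¬ u ∣ w ^ k) : Prime u := by
  refine ⟨hu, fun h => hw 0 (by rw [pow_zero]; exact h.dvd), fun x y hxy => ?_⟩
  by_contra hno
  push Not at hno
  obtain ⟨j, e, c, he, hx⟩ := exists_eq_unit_mul_pow_mod hm hno.1
  obtain ⟨k, e', c', he', hy⟩ := exists_eq_unit_mul_pow_mod hm hno.2
  obtain ⟨d, hd⟩ := hxy
  refine hw (j + k) ((he.mul he').dvd_mul_left.1
    ⟨d - (e * w ^ j * c' + c * (e' * w ^ k) + u * c * c'), ?_⟩)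
  rw [hx, hy] at hd
  rw [pow_add]
  linear_combination hd

theorem exists_prime_mem (hu : u ≠ 0) (hw : ∀ k : ℕ, ¬ u ∣ w ^ k) {P : Ideal R} (hP0 : P ≠ ⊥)
    (hP : P.IsPrime) : ∃ x ∈ P, Prime x := by
  classical
  have hup := prime_of_param hm hu hw
  by_cases huP : u ∈ P
  · exact ⟨u, huP, hup⟩
  have hum : Ideal.span {u} ≤ Ideal.jacobson (⊥ : Ideal R) := by
    rw [IsLocalRing.jacobson_eq_maximalIdeal ⊥ bot_ne_top, Ideal.span_le, Set.singleton_subset_iff]
    show u ∈ IsLocalRing.maximalIdeal R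
    rw [hm]; exact Ideal.subset_span (Or.inl rfl)
  have hfg : P.FG := IsNoetherian.noetherian P
  have key : ∀ N : Ideal R, (∀ y ∈ P, ∃ z ∈ N, ∃ c, y = z + u * c) → N ≤ P → P ≤ N := by
    intro N hN hNP
    refine Submodule.le_of_le_smul_of_le_jacobson_bot hfg hum fun y hy => ?_
    obtain ⟨z, hz, c, rfl⟩ := hN y hy
    refine Submodule.add_mem_sup hz (Submodule.smul_mem_smul (Ideal.mem_span_singleton_self u) ?_)
    have : u * c ∈ P := by
      have := P.sub_mem hy (hNP hz)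
      rwa [add_sub_cancel_left] at this
    exact (hP.mem_or_mem this).resolve_left huP
  have hex : ∃ a, ∃ x ∈ P, ∃ c, x = w ^ a + u * c := by
    by_contra hno
    push Not at hno
    refine hP0 (le_bot_iff.1 (key ⊥ (fun y hy => ⟨0, Submodule.zero_mem _, ?_⟩) bot_le))
    by_contra hdiv
    push Not at hdiv
    obtain ⟨k, e, c, he, hy'⟩ := exists_eq_unit_mul_pow_mod hm (x := y)
      fun ⟨d, hd⟩ => hdiv d (by rw [zero_add]; exact hd)
    obtain ⟨e', rfl⟩ := he
    exact hno k _ (P.mul_mem_left (↑e'⁻¹ : R) hy) (↑e'⁻¹ * c) (by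
      rw [hy', mul_add, ← mul_assoc, Units.inv_mul, one_mul]; ring)
  obtain ⟨π, hπ, c₀, hπ'⟩ := Nat.find_spec hex
  have hle : P ≤ Ideal.span {π} := key _ (fun y hy => by
    by_cases huy : u ∣ y
    · obtain ⟨d, hd⟩ := huy
      exact ⟨0, Submodule.zero_mem _, d, by rw [zero_add]; exact hd⟩
    obtain ⟨k, e, c, he, hy'⟩ := exists_eq_unit_mul_pow_mod hm huy
    obtain ⟨e', rfl⟩ := he
    have hk : Nat.find hex ≤ k := Nat.find_min' hex ⟨_, P.mul_mem_left (↑e'⁻¹ : R) hy,
      ↑e'⁻¹ * c, by rw [hy', mul_add, ← mul_assoc, Units.inv_mul, one_mul]; ring⟩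
    refine ⟨↑e' * w ^ (k - Nat.find hex) * π, Ideal.mul_mem_left _ _
      (Ideal.mem_span_singleton_self π), c - ↑e' * w ^ (k - Nat.find hex) * c₀, ?_⟩
    rw [hy', hπ', show w ^ k = w ^ (k - Nat.find hex) * w ^ Nat.find hex by
      rw [← pow_add, Nat.sub_add_cancel hk]]
    ring) ((Ideal.span_singleton_le_iff_mem _).2 hπ)
  have heq : Ideal.span {π} = P := le_antisymm ((Ideal.span_singleton_le_iff_mem _).2 hπ) hle
  have hπ0 : π ≠ 0 := fun h0 => hP0 (by rw [← heq, h0, Ideal.span_singleton_eq_bot.2 rfl])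
  exact ⟨π, hπ, (Ideal.span_singleton_prime hπ0).1 (heq.symm ▸ hP)⟩

omit hm

/-- **Two parameters give a factorial ring.** -/
theorem twoParam : TwoParam := by
  intro R _ _ _ _ u w hm hu hw
  exact ⟨UniqueFactorizationMonoid.iff_exists_prime_mem_of_isPrime.2 fun I hI hI' =>
    exists_prime_mem hm hu hw hI hI', prime_of_param hm hu hw⟩

end FA.Carayol

end
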