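import Fermat.Agent.Carayol.Algebra.Unram
import Fermat.Agent.Carayol.Algebra.TwoParam
import Mathlib.RingTheory.Valuation.LocalSubring
import Mathlib.RingTheory.LocalRing.LocalSubring

/-!
# A point of an arithmetic surface given by its branches

`B` is the integral closure in `F` of `φ : O[X] → F`, `p` a point over `ϖ`. If each vertical
valuation through `p` has a local equation `t i` which is a unit on the others and divides a power of
`ϖ`, and is regular at `p`, then the local ring is factorial.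
-/

set_option autoImplicit false
set_option linter.unusedSectionVars false
set_option linter.style.haveILetI false

noncomputable section

namespace FA.Carayol

open Polynomial

variable {O F : Type} [CommRing O] [IsDomain O] [Field F]

/-- A vertical valuation. -/
def IsVertV (φ : O[X] →+* F) (ϖ : O) (V : ValuationSubring F) : Prop :=
  V.valuation (φ (C ϖ)) < 1 ∧ ∀ P : O[X], (∃ i, IsUnit (P.coeff i)) → V.valuation (φ P) = 1

/-- A point with its branches. -/
structure SurfPt (φ : O[X] →+* F) (ϖ : O) (B : Subring F) (p : Ideal B) (ι : Type) where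
  mem_iff : ∀ x, x ∈ B ↔ φ.IsIntegralElem x
  maxO : (Ideal.span {ϖ}).IsMaximal
  maximal : p.IsMaximal
  noeth : IsNoetherianRing B
  pi_mem : ∃ y ∈ p, (y : F) = φ (C ϖ)
  W : ι → ValuationSubring F
  pi_ne : φ (C ϖ) ≠ 0
  vert : ∀ i, IsVertV φ ϖ (W i)
  thru : ∀ i (x : B), (W i).valuation (x : F) < 1 → x ∈ p
  cover : ∀ V, IsVertV φ ϖ V → (∀ x : B, V.valuation (x : F) < 1 → x ∈ p) → ∃ i, V = W i
  exists_branch : Nonempty ι
  t : ι → B
  t_small : ∀ i, (W i).valuation (t i : F) < 1
  t_unif : ∀ i (x : F), (W i).valuation x < 1 → (W i).valuation x ≤ (W i).valuation (t i : F)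
  t_sep : ∀ i j, j ≠ i → (W j).valuation (t i : F) = 1
  t_dvd : ∀ i, ∃ (a : ℕ) (s c : B), c ∉ p ∧ (t i : F) * s = φ (C ϖ) ^ a * c
  par : ι → B
  par_mem : ∀ i, par i ∈ p
  par_unit : ∀ i, (W i).valuation (par i : F) = 1
  regular : ∀ i (x : B), (W i).valuation (x : F) = 1 → ∃ (j : ℕ) (s w : B), s ∉ p ∧ w ∉ p ∧
    (W i).valuation ((x : F) * s - (par i : F) ^ j * w) < 1

theorem le_one_of_vert {φ : O[X] →+* F} {ϖ : O} {V : ValuationSubring F} (hV : IsVertV φ ϖ V)
    (P : O[X]) : V.valuation (φ P) ≤ 1 := by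
  set n := P.natDegree + 1
  have hX : V.valuation (φ (X ^ n)) = 1 := hV.2 _ ⟨n, by simp⟩
  have h1 : V.valuation (φ (P + X ^ n)) = 1 := hV.2 _ ⟨n, by
    rw [coeff_add, coeff_eq_zero_of_natDegree_lt (Nat.lt_succ_self _), coeff_X_pow, if_pos rfl, zero_add]
    exact isUnit_one⟩
  rw [show φ P = φ (P + X ^ n) - φ (X ^ n) by rw [map_add, add_sub_cancel_right]]
  exact Valuation.map_sub_le _ h1.le hX.le

namespace SurfPt

variable {φ : O[X] →+* F} {ϖ : O} {B : Subring F} {p : Ideal B} {ι : Type} (S : SurfPt φ ϖ B p ι)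

include S

theorem range_le (P : O[X]) : φ P ∈ B := (S.mem_iff _).2 φ.isIntegralElem_map

/-- The polynomials in the chart. -/
def toB : O[X] →+* B := φ.codRestrict B S.range_le

theorem coe_toB (P : O[X]) : (S.toB P : F) = φ P := rfl

theorem toB_integral : (S.toB).IsIntegral := fun b => by
  obtain ⟨P, hP, he⟩ := (S.mem_iff _).1 b.2
  refine ⟨P, hP, Subtype.ext ?_⟩
  rw [ZeroMemClass.coe_zero, ← he, ← Subring.coe_subtype, hom_eval₂]
  rfl

/-- Vertical valuations contain the chart. -/
theorem mem_of_vert {V : ValuationSubring F} (hV : IsVertV φ ϖ V) {x : F} (hx : x ∈ B) : x ∈ V := by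
  obtain ⟨P, hP, he⟩ := (S.mem_iff x).1 hx
  let g : O[X] →+* V := φ.codRestrict V.toSubring fun Q =>
    (ValuationSubring.valuation_le_one_iff _ _).1 (le_one_of_vert hV Q)
  have hint : IsIntegral V x := ⟨P.map g, hP.map _, by
    rw [eval₂_map]
    exact he⟩
  obtain ⟨y, hy⟩ := IsIntegrallyClosed.isIntegral_iff.1 hint
  exact hy ▸ y.2

/-- The centre of a vertical valuation. -/
def ctr (i : ι) : Ideal B where
  carrier := {x | (S.W i).valuation (x : F) < 1}
  zero_mem' := by simp
  add_mem' {a b} ha hb := by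
    show (S.W i).valuation ((a : F) + b) < 1
    exact Valuation.map_add_lt _ ha hb
  smul_mem' c x hx := by
    show (S.W i).valuation ((c : F) * x) < 1
    rw [map_mul]
    exact lt_of_le_of_lt (mul_le_of_le_one_left'
      ((ValuationSubring.valuation_le_one_iff _ _).2 (S.mem_of_vert (S.vert i) c.2))) hx

theorem mem_ctr {i : ι} {x : B} : x ∈ S.ctr i ↔ (S.W i).valuation (x : F) < 1 := Iff.rfl

theorem val_eq_one_of_notMem {i : ι} {x : B} (hx : x ∉ S.ctr i) :
    (S.W i).valuation (x : F) = 1 :=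
  le_antisymm ((ValuationSubring.valuation_le_one_iff _ _).2 (S.mem_of_vert (S.vert i) x.2))
    (not_lt.1 hx)

theorem ctr_le (i : ι) : S.ctr i ≤ p := fun x hx => S.thru i x hx

theorem val_eq_one_of_notMem_p {i : ι} {x : B} (hx : x ∉ p) : (S.W i).valuation (x : F) = 1 :=
  S.val_eq_one_of_notMem fun h => hx (S.ctr_le i h)

/-- The local ring. -/
def R : Subring F :=
  haveI := S.maximal.isPrime
  (LocalSubring.ofPrime B p).toSubring

theorem le_R : B ≤ S.R :=
  haveI := S.maximal.isPrime
  LocalSubring.le_ofPrime B p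

instance instLocal : IsLocalRing S.R :=
  haveI := S.maximal.isPrime
  (LocalSubring.ofPrime B p).isLocalRing

/-- The inclusion of the chart. -/
instance instAlg : Algebra B S.R := (Subring.inclusion S.le_R).toAlgebra

theorem coe_algebraMap (b : B) : ((algebraMap B S.R b : S.R) : F) = b := rfl

instance instLoc :
    haveI := S.maximal.isPrime
    IsLocalization.AtPrime S.R p :=
  haveI := S.maximal.isPrime
  inferInstanceAs (IsLocalization.AtPrime (LocalSubring.ofPrime B p).toSubring p)

theorem exists_frac (x : S.R) : ∃ a c : B, c ∉ p ∧ (x : F) * c = a := by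
  haveI := S.maximal.isPrime
  obtain ⟨⟨a, c⟩, h⟩ := IsLocalization.surj p.primeCompl x
  exact ⟨a, c, c.2, congrArg Subtype.val h⟩

theorem mem_R {x : F} : x ∈ S.R ↔ ∃ a c : B, c ∉ p ∧ x * c = a := by
  haveI := S.maximal.isPrime
  refine ⟨fun hx => S.exists_frac ⟨x, hx⟩, fun ⟨a, c, hc, h⟩ => ?_⟩
  obtain ⟨u, hu⟩ := IsLocalization.map_units S.R (⟨c, hc⟩ : p.primeCompl)
  have hu' : (((↑u : S.R) : S.R) : F) = c := by rw [hu]; rfl
  have h2 : (((↑u⁻¹ : S.R) : S.R) : F) * c = 1 := by
    rw [← hu']; exact congrArg Subtype.val u.inv_mul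
  have : x = ((↑u⁻¹ * algebraMap B S.R a : S.R) : F) := by
    rw [Subring.coe_mul, S.coe_algebraMap, ← h, mul_left_comm, h2, mul_one]
  rw [this]
  exact SetLike.coe_mem _

theorem isUnit_algebraMap {b : B} (hb : b ∉ p) : IsUnit (algebraMap B S.R b) := by
  haveI := S.maximal.isPrime
  exact IsLocalization.map_units S.R (⟨b, hb⟩ : p.primeCompl)

theorem mem_max {b : B} : algebraMap B S.R b ∈ IsLocalRing.maximalIdeal S.R ↔ b ∈ p := by
  haveI := S.maximal.isPrime
  exact IsLocalization.AtPrime.to_map_mem_maximal_iff S.R p b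

theorem noethR : IsNoetherianRing S.R := by
  haveI := S.maximal.isPrime
  haveI := S.noeth
  exact IsLocalization.isNoetherianRing p.primeCompl S.R inferInstance

theorem mem_of_integral_R {x : F} (hx : IsIntegral S.R x) : x ∈ S.R := by
  haveI := S.maximal.isPrime
  haveI : IsScalarTower B S.R F := IsScalarTower.of_algebraMap_eq fun _ => rfl
  obtain ⟨⟨c, hc⟩, h⟩ := IsIntegral.exists_multiple_integral_of_isLocalization p.primeCompl x hx
  have hcx : (c : F) * x ∈ B := by
    refine (S.mem_iff _).2 ?_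
    have h2 : IsIntegral B ((c : F) * x) := h
    exact isIntegral_trans' S h2
  exact S.mem_R.2 ⟨⟨_, hcx⟩, c, hc, mul_comm _ _⟩
where
  isIntegral_trans' {φ : O[X] →+* F} {ϖ : O} {B : Subring F} {p : Ideal B} {ι : Type}
      (S : SurfPt φ ϖ B p ι) {y : F} (hy : IsIntegral B y) : φ.IsIntegralElem y := by
    letI : Algebra O[X] B := (S.toB).toAlgebra
    letI : Algebra O[X] F := φ.toAlgebra
    haveI : IsScalarTower O[X] B F := IsScalarTower.of_algebraMap_eq fun _ => rfl
    haveI : Algebra.IsIntegral O[X] B := ⟨S.toB_integral⟩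
    exact isIntegral_trans (R := O[X]) y hy

theorem closedR : IsIntegrallyClosed S.R := by
  refine (isIntegrallyClosed_iff (FractionRing S.R)).2 fun {x} hx => ?_
  set j : FractionRing S.R →+* F := IsFractionRing.lift (g := S.R.subtype) Subtype.val_injective
  have hj : ∀ r, j (algebraMap S.R (FractionRing S.R) r) = (r : F) :=
    IsFractionRing.lift_algebraMap _
  have h2 : IsIntegral S.R (j x) := by
    obtain ⟨P, hP, h0⟩ := hx
    refine ⟨P, hP, ?_⟩
    have := congrArg j h0
    rwa [hom_eval₂, map_zero, show j.comp (algebraMap S.R (FractionRing S.R)) = algebraMap S.R F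
      from RingHom.ext hj] at this
  exact ⟨⟨_, S.mem_of_integral_R h2⟩, j.injective (hj _)⟩

/-- A prime of the chart inside `p` and containing `ϖ` is the point or lies over the generic point
of the special fibre. -/
theorem gauss_or_eq {Q : Ideal B} (hQ : Q.IsPrime) (hQp : Q ≤ p) (hϖ : S.toB (C ϖ) ∈ Q) :
    (∀ P : O[X], (∃ i, IsUnit (P.coeff i)) → S.toB P ∉ Q) ∨ Q = p := by
  refine or_iff_not_imp_left.2 fun h => ?_
  push Not at h
  obtain ⟨P, ⟨i, hi⟩, hP⟩ := h
  haveI := S.maxO
  letI := Ideal.Quotient.field (Ideal.span {ϖ})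
  set g : O[X] →+* (O ⧸ Ideal.span {ϖ})[X] := mapRingHom (Ideal.Quotient.mk _)
  have hgs : Function.Surjective g := Polynomial.map_surjective _ Ideal.Quotient.mk_surjective
  set J := Q.comap S.toB
  haveI : J.IsPrime := Ideal.comap_isPrime _ _
  have hker : RingHom.ker g ≤ J := fun x hx => by
    have hc : ∀ n, ϖ ∣ x.coeff n := fun n => by
      have := congrArg (fun y : (O ⧸ Ideal.span {ϖ})[X] => y.coeff n) (RingHom.mem_ker.1 hx)
      simp only [g, coe_mapRingHom, coeff_map, coeff_zero] at this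
      rwa [Ideal.Quotient.eq_zero_iff_dvd] at this
    obtain ⟨y, rfl⟩ := C_dvd_iff_dvd_coeff ϖ x |>.2 hc
    exact Ideal.mul_mem_right _ _ (show C ϖ ∈ J from hϖ)
  haveI hp : (J.map g).IsPrime := Ideal.map_isPrime_of_surjective hgs hker
  have hne : J.map g ≠ ⊥ := fun h0 => by
    have h1 : g P ∈ J.map g := Ideal.mem_map_of_mem _ hP
    rw [h0, Ideal.mem_bot] at h1
    have := congrArg (fun y : (O ⧸ Ideal.span {ϖ})[X] => y.coeff i) h1
    simp only [g, coe_mapRingHom, coeff_map, coeff_zero] at this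
    rw [Ideal.Quotient.eq_zero_iff_mem] at this
    exact S.maxO.ne_top (Ideal.eq_top_of_isUnit_mem _ this hi)
  have hJ : J = (J.map g).comap g := by
    rw [Ideal.comap_map_of_surjective g hgs, ← RingHom.ker_eq_comap_bot]
    exact (sup_eq_left.2 hker).symm
  haveI := Ideal.IsPrime.isMaximal hp hne
  have hJmax : J.IsMaximal := hJ ▸ Ideal.comap_isMaximal_of_surjective g hgs
  have := Ideal.isMaximal_of_isIntegral_of_isMaximal_comap' S.toB S.toB_integral Q hJmax
  exact this.eq_of_le S.maximal.ne_top hQp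

/-- A valuation ring centred in the local ring at a prime over the generic point of the special
fibre is a branch. -/
theorem exists_of_centre {V : ValuationSubring F} (hBV : ∀ x ∈ B, x ∈ V)
    (hp : ∀ x : B, V.valuation (x : F) < 1 → x ∈ p)
    (hϖ : V.valuation (φ (C ϖ)) < 1)
    (hne : ∃ x ∈ p, V.valuation (x : F) = 1) : ∃ i, V = S.W i := by
  refine S.cover V ⟨hϖ, fun P hP => ?_⟩ hp
  set Q : Ideal B :=
    { carrier := {x | V.valuation (x : F) < 1}
      zero_mem' := by simp
      add_mem' := fun {a b} ha hb => by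
        show V.valuation ((a : F) + b) < 1
        exact Valuation.map_add_lt _ ha hb
      smul_mem' := fun c x hx => by
        show V.valuation ((c : F) * x) < 1
        rw [map_mul]
        exact lt_of_le_of_lt (mul_le_of_le_one_left'
          ((ValuationSubring.valuation_le_one_iff _ _).2 (hBV _ c.2))) hx }
  have hle : ∀ x : B, V.valuation (x : F) ≤ 1 :=
    fun x => (ValuationSubring.valuation_le_one_iff _ _).2 (hBV _ x.2)
  haveI hQ : Q.IsPrime := by
    refine Ideal.isPrime_iff.2 ⟨fun h => ?_, fun {a b} hab => ?_⟩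
    · have : (1 : B) ∈ Q := h ▸ Submodule.mem_top
      simp [Q] at this
    · by_contra hc
      push Not at hc
      have h1 : V.valuation (a : F) = 1 := le_antisymm (hle a) (not_lt.1 hc.1)
      have h2 : V.valuation (b : F) = 1 := le_antisymm (hle b) (not_lt.1 hc.2)
      have h3 : V.valuation ((a : F) * b) < 1 := hab
      rw [map_mul, h1, h2, one_mul] at h3
      exact lt_irrefl _ h3
  rcases S.gauss_or_eq hQ hp hϖ with h | h
  · exact le_antisymm (hle (S.toB P)) (not_lt.1 (h P hP))
  · obtain ⟨x, hx, h1⟩ := hne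
    have : x ∈ Q := h ▸ hx
    exact absurd h1 (ne_of_lt this)

theorem pi_mem_p : S.toB (C ϖ) ∈ p := by
  obtain ⟨y, hy, h⟩ := S.pi_mem
  exact (Subtype.ext h.symm : S.toB (C ϖ) = y) ▸ hy

theorem t_mem_ctr (i : ι) : S.t i ∈ S.ctr i := S.t_small i

theorem val_R_le (i : ι) (x : S.R) : (S.W i).valuation (x : F) ≤ 1 := by
  obtain ⟨a, c, hc, h⟩ := S.exists_frac x
  have := congrArg (S.W i).valuation h
  rw [map_mul, S.val_eq_one_of_notMem_p hc, mul_one] at this
  rw [this]
  exact (ValuationSubring.valuation_le_one_iff _ _).2 (S.mem_of_vert (S.vert i) a.2)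

/-- The centre in the local ring. -/
def ctrR (i : ι) : Ideal S.R where
  carrier := {x | (S.W i).valuation (x : F) < 1}
  zero_mem' := by simp
  add_mem' {a b} ha hb := by
    show (S.W i).valuation ((a : F) + b) < 1
    exact Valuation.map_add_lt _ ha hb
  smul_mem' c x hx := by
    show (S.W i).valuation ((c : F) * x) < 1
    rw [map_mul]
    exact lt_of_le_of_lt (mul_le_of_le_one_left' (S.val_R_le i c)) hx

instance ctrR_isPrime (i : ι) : (S.ctrR i).IsPrime := by
  refine Ideal.isPrime_iff.2 ⟨fun h => ?_, fun {a b} hab => ?_⟩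
  · have : (1 : S.R) ∈ S.ctrR i := h ▸ Submodule.mem_top
    simp [ctrR] at this
  · by_contra hc
    push Not at hc
    have h1 : (S.W i).valuation (a : F) = 1 := le_antisymm (S.val_R_le i a) (not_lt.1 hc.1)
    have h2 : (S.W i).valuation (b : F) = 1 := le_antisymm (S.val_R_le i b) (not_lt.1 hc.2)
    have h3 : (S.W i).valuation ((a : F) * b) < 1 := hab
    rw [map_mul, h1, h2, one_mul] at h3
    exact lt_irrefl _ h3

/-- **An element of a branch is a fraction with denominator a unit there.** -/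
theorem exists_frac_branch (i : ι) {x : F} (hx : x ∈ S.W i) :
    ∃ a c : B, c ∉ S.ctr i ∧ x * c = a := by
  haveI := S.noethR
  haveI := S.closedR
  set L := LocalSubring.ofPrime S.R (S.ctrR i)
  haveI : IsIntegrallyClosedIn L.toSubring F := by
    refine Subring.isIntegrallyClosedIn_iff.2 fun {y} hy => ?_
    obtain ⟨⟨c, hc⟩, h⟩ :=
      IsIntegral.exists_multiple_integral_of_isLocalization (S.ctrR i).primeCompl y hy
    have hcy : (c : F) * y ∈ S.R := S.mem_of_integral_R h
    obtain ⟨u, hu⟩ := IsLocalization.map_units L.toSubring (⟨c, hc⟩ : (S.ctrR i).primeCompl)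
    have hu' : (((↑u : L.toSubring)) : F) = c := by rw [hu]; rfl
    have h2 : (((↑u⁻¹ : L.toSubring)) : F) * c = 1 := by
      rw [← hu']; exact congrArg Subtype.val u.inv_mul
    have : y = ((↑u⁻¹ * (⟨_, LocalSubring.le_ofPrime S.R (S.ctrR i) hcy⟩ : L.toSubring) :
        L.toSubring) : F) := by
      rw [Subring.coe_mul, ← mul_assoc, h2, one_mul]
    rw [this]
    exact SetLike.coe_mem _
  have hmem : x ∈ L.toSubring := by
    by_contra hxL
    obtain ⟨V, hV, hxV⟩ := LocalSubring.exists_le_valuationSubring_of_isIntegrallyClosedIn hxL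
    obtain ⟨hle, hloc⟩ := LocalSubring.le_def.1 hV
    have hlt : ∀ r : S.R, V.valuation (r : F) < 1 ↔ r ∈ S.ctrR i := fun r => by
      have hrV : (r : F) ∈ V := hle (LocalSubring.le_ofPrime S.R (S.ctrR i) r.2)
      rw [show (r : F) = ((⟨(r : F), hrV⟩ : V) : F) from rfl, ← ValuationSubring.valuation_lt_one_iff,
        IsLocalRing.mem_maximalIdeal, mem_nonunits_iff,
        ← IsLocalization.AtPrime.to_map_mem_maximal_iff L.toSubring (S.ctrR i) r,
        IsLocalRing.mem_maximalIdeal, mem_nonunits_iff, not_iff_not]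
      exact ⟨fun h => hloc.map_nonunit _ h, fun h => h.map (Subring.inclusion hle)⟩
    have hB : ∀ b : B, V.valuation (b : F) < 1 ↔ b ∈ S.ctr i := fun b => hlt (algebraMap B S.R b)
    obtain ⟨j, hj⟩ := S.exists_of_centre (V := V)
      (fun y hy => hle (LocalSubring.le_ofPrime S.R (S.ctrR i) (S.le_R hy)))
      (fun b hb => S.ctr_le i ((hB b).1 hb))
      ((hB (S.toB (C ϖ))).2 (S.vert i).1)
      ⟨S.par i, S.par_mem i, le_antisymm
        ((ValuationSubring.valuation_le_one_iff _ _).2
          (hle (LocalSubring.le_ofPrime S.R (S.ctrR i) (S.le_R (S.par i).2))))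
        (not_lt.1 fun h => (hB (S.par i)).1 h |> fun h' => (ne_of_lt h') (S.par_unit i))⟩
    have hij : j = i := by
      by_contra hne
      have h1 := (hB (S.t i)).2 (S.t_mem_ctr i)
      rw [hj, S.t_sep i j hne] at h1
      exact lt_irrefl _ h1
    subst hij
    exact hxV (hj ▸ hx)
  obtain ⟨⟨r, c⟩, h⟩ := IsLocalization.surj (S.ctrR i).primeCompl (⟨x, hmem⟩ : L.toSubring)
  have h' : x * ((c : S.R) : F) = (r : F) := congrArg Subtype.val h
  obtain ⟨a₁, c₁, hc₁, e₁⟩ := S.exists_frac r
  obtain ⟨a₂, c₂, hc₂, e₂⟩ := S.exists_frac (c : S.R)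
  refine ⟨a₁ * c₂, a₂ * c₁, fun hmem => ?_, ?_⟩
  · have hv : (S.W i).valuation ((a₂ : F) * c₁) = 1 := by
      rw [map_mul, S.val_eq_one_of_notMem_p hc₁, mul_one, ← e₂, map_mul,
        S.val_eq_one_of_notMem_p hc₂, mul_one]
      exact le_antisymm (S.val_R_le i _) (not_lt.1 c.2)
    exact (ne_of_lt (show (S.W i).valuation ((a₂ : F) * c₁) < 1 from hmem)) hv
  · push_cast
    rw [← e₁, ← e₂, ← h']
    ring

/-- `t i` in the local ring. -/
def tR (i : ι) : S.R := algebraMap B S.R (S.t i)

/-- The parameter in the local ring. -/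
def parR (i : ι) : S.R := algebraMap B S.R (S.par i)

theorem t_ne_zero (i : ι) : (S.t i : F) ≠ 0 := fun h => by
  have h2 := S.t_unif i (φ (C ϖ)) (S.vert i).1
  rw [h, map_zero, le_zero_iff, map_eq_zero] at h2
  exact S.pi_ne h2

theorem exists_val (P : Ideal S.R) [P.IsPrime] : ∃ V : ValuationSubring F, S.R ≤ V.toSubring ∧
    ∀ r : S.R, V.valuation (r : F) < 1 ↔ r ∈ P := by
  obtain ⟨V, hV⟩ := (LocalSubring.ofPrime S.R P).exists_le_valuationSubring
  obtain ⟨hle, hloc⟩ := LocalSubring.le_def.1 hV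
  refine ⟨V, (LocalSubring.le_ofPrime S.R P).trans hle, fun r => ?_⟩
  have hrV : (r : F) ∈ V := hle (LocalSubring.le_ofPrime S.R P r.2)
  rw [show (r : F) = ((⟨(r : F), hrV⟩ : V) : F) from rfl, ← ValuationSubring.valuation_lt_one_iff,
    IsLocalRing.mem_maximalIdeal, mem_nonunits_iff,
    ← IsLocalization.AtPrime.to_map_mem_maximal_iff (LocalSubring.ofPrime S.R P).toSubring P r,
    IsLocalRing.mem_maximalIdeal, mem_nonunits_iff, not_iff_not]
  exact ⟨fun h => hloc.map_nonunit _ h, fun h => h.map (Subring.inclusion hle)⟩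

/-- **The local equation generates the centre.** -/
theorem ctrR_eq (i : ι) : S.ctrR i = Ideal.span {S.tR i} := by
  haveI := S.noethR
  haveI := S.closedR
  have ht0 : S.tR i ≠ 0 := fun h => S.t_ne_zero i (congrArg Subtype.val h)
  have hmem : S.tR i ∈ S.ctrR i := S.t_small i
  have hmin : ∀ P ∈ (Ideal.span {S.tR i}).minimalPrimes, P = S.ctrR i := by
    intro P hP
    haveI hPp : P.IsPrime := hP.1.1
    have htP : S.tR i ∈ P := hP.1.2 (Ideal.mem_span_singleton_self _)
    set Q := P.comap (algebraMap B S.R)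
    have hQp : Q ≤ p := fun b hb => S.mem_max.1 (IsLocalRing.le_maximalIdeal hPp.ne_top hb)
    have hϖ : S.toB (C ϖ) ∈ Q := by
      obtain ⟨a, s, c, hc, h⟩ := S.t_dvd i
      show algebraMap B S.R (S.toB (C ϖ)) ∈ P
      have h' : S.tR i * algebraMap B S.R s =
          algebraMap B S.R (S.toB (C ϖ)) ^ a * algebraMap B S.R c := Subtype.ext (by
        push_cast; exact h)
      have h1 : algebraMap B S.R (S.toB (C ϖ)) ^ a * algebraMap B S.R c ∈ P :=
        h' ▸ P.mul_mem_right _ htP
      rcases hPp.mem_or_mem h1 with h2 | h2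
      · exact hPp.mem_of_pow_mem _ h2
      · exact absurd (P.eq_top_of_isUnit_mem h2 (S.isUnit_algebraMap hc)) hPp.ne_top
    rcases S.gauss_or_eq (Ideal.comap_isPrime _ _) hQp hϖ with hg | hg
    · obtain ⟨V, hle, hV⟩ : ∃ V : ValuationSubring F, S.R ≤ V.toSubring ∧
          ∀ r : S.R, V.valuation (r : F) < 1 ↔ r ∈ P := S.exists_val P
      obtain ⟨j, hj⟩ := S.cover V ⟨(hV (algebraMap B S.R (S.toB (C ϖ)))).2 hϖ,
        fun F' hF' => le_antisymm ((ValuationSubring.valuation_le_one_iff _ _).2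
          (hle (S.le_R (S.range_le F')))) (not_lt.1 fun h => hg F' hF' ((hV _).1 h))⟩
        (fun x hx => hQp ((hV (algebraMap B S.R x)).1 hx))
      have hij : j = i := by
        by_contra hne
        have h1 := (hV (S.tR i)).2 htP
        rw [hj] at h1
        exact (ne_of_lt h1) (S.t_sep i j hne)
      subst hij
      subst hj
      exact Ideal.ext fun r => (hV r).symm
    · have h1 : S.ctrR i ≤ P := fun r hr => by
        obtain ⟨a, c, hc, h⟩ := S.exists_frac r
        have ha : a ∈ p := S.ctr_le i (show (S.W i).valuation (a : F) < 1 by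
          rw [← h, map_mul, S.val_eq_one_of_notMem_p hc, mul_one]; exact hr)
        have ha' : algebraMap B S.R a ∈ P := by
          have : a ∈ Q := by rw [show Q = p from hg]; exact ha
          exact this
        have he : r * algebraMap B S.R c = algebraMap B S.R a := Subtype.ext h
        rw [← he] at ha'
        exact (hPp.mem_or_mem ha').resolve_right
          fun h2 => hPp.ne_top (P.eq_top_of_isUnit_mem h2 (S.isUnit_algebraMap hc))
      exact le_antisymm (hP.2 ⟨S.ctrR_isPrime i, (Ideal.span_singleton_le_iff_mem _).2 hmem⟩ h1) h1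
  have hrad : (Ideal.span {S.tR i}).IsRadical := by
    refine unramRadical S.R (S.tR i) ht0 fun P hP a ha => ?_
    rw [hmin P hP] at ha ⊢
    have hx : (a : F) / (S.t i : F) ∈ S.W i := by
      rw [← ValuationSubring.valuation_le_one_iff, map_div₀]
      exact div_le_one_of_le₀ (S.t_unif i _ ha) zero_le
    obtain ⟨b, c, hc, h⟩ := S.exists_frac_branch i hx
    refine ⟨algebraMap B S.R c, hc, algebraMap B S.R b, Subtype.ext ?_⟩
    rw [Subring.coe_mul, Subring.coe_mul, S.coe_algebraMap, S.coe_algebraMap,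
      show ((S.tR i : S.R) : F) = (S.t i : F) from rfl, ← h]
    field_simp [S.t_ne_zero i]
  refine le_antisymm ?_ ((Ideal.span_singleton_le_iff_mem _).2 hmem)
  rw [← hrad.radical, Ideal.radical_eq_sInf]
  intro x hx
  rw [Ideal.mem_sInf]
  rintro P ⟨hP1, hP2⟩
  haveI := hP2
  obtain ⟨P', hP', hle⟩ := Ideal.exists_minimalPrimes_le hP1
  exact hle ((hmin P' hP') ▸ hx)

/-- The two parameters. -/
theorem maximal_eq (i : ι) :
    IsLocalRing.maximalIdeal S.R = Ideal.span {S.tR i, S.parR i} := by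
  have ht : S.tR i ∈ IsLocalRing.maximalIdeal S.R :=
    S.mem_max.2 (S.ctr_le i (S.t_mem_ctr i))
  have hp : S.parR i ∈ IsLocalRing.maximalIdeal S.R := S.mem_max.2 (S.par_mem i)
  refine le_antisymm (fun r hr => ?_) (Ideal.span_le.2 (Set.insert_subset ht
    (Set.singleton_subset_iff.2 hp)))
  obtain ⟨a, c, hc, h⟩ := S.exists_frac r
  have he : r * algebraMap B S.R c = algebraMap B S.R a := Subtype.ext h
  suffices ha : algebraMap B S.R a ∈ Ideal.span {S.tR i, S.parR i} by
    obtain ⟨u, hu⟩ := S.isUnit_algebraMap hc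
    rw [← he, ← hu] at ha
    have := Ideal.mul_mem_right (↑u⁻¹ : S.R) _ ha
    rwa [mul_assoc, Units.mul_inv, mul_one] at this
  have hctr : ∀ y : S.R, y ∈ S.ctrR i → y ∈ Ideal.span {S.tR i, S.parR i} := fun y hy => by
    rw [S.ctrR_eq i] at hy
    exact Ideal.span_mono (by simp) hy
  by_cases hai : a ∈ S.ctr i
  · exact hctr _ hai
  have ha' : a ∈ p := S.mem_max.1 (he ▸ Ideal.mul_mem_right _ _ hr)
  obtain ⟨j, s, w, hs, hw, hlt⟩ := S.regular i a (S.val_eq_one_of_notMem hai)
  have hj : j ≠ 0 := fun h0 => by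
    rw [h0, pow_zero, one_mul] at hlt
    have h1 : (a * s - w : B) ∈ p := S.thru i _ hlt
    exact hw (by simpa using p.sub_mem (p.mul_mem_right s ha') h1)
  obtain ⟨u, hu⟩ := S.isUnit_algebraMap hs
  have h1 : algebraMap B S.R a * algebraMap B S.R s - S.parR i ^ j * algebraMap B S.R w ∈
      Ideal.span {S.tR i, S.parR i} := hctr _ (by
    show (S.W i).valuation _ < 1
    push_cast
    exact hlt)
  have h2 : S.parR i ^ j * algebraMap B S.R w ∈ Ideal.span {S.tR i, S.parR i} :=
    Ideal.mul_mem_right _ _ (Ideal.pow_mem_of_mem _ (Ideal.subset_span (by simp)) _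
      (Nat.pos_of_ne_zero hj))
  have h3 := Ideal.mul_mem_right (↑u⁻¹ : S.R) _ (Ideal.add_mem _ h1 h2)
  rwa [sub_add_cancel, ← hu, mul_assoc, Units.mul_inv, mul_one] at h3

theorem factorial : UniqueFactorizationMonoid S.R := by
  haveI := S.noethR
  obtain ⟨i⟩ := S.exists_branch
  refine (twoParam S.R (S.tR i) (S.parR i) (S.maximal_eq i)
    (fun h => S.t_ne_zero i (congrArg Subtype.val h)) fun k hk => ?_).1
  have hmem : S.parR i ^ k ∈ S.ctrR i := by
    rw [S.ctrR_eq i, Ideal.mem_span_singleton]; exact hk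
  have h1 : (S.W i).valuation ((S.par i : F) ^ k) < 1 := hmem
  rw [map_pow, S.par_unit i, one_pow] at h1
  exact lt_irrefl _ h1

end SurfPt

end FA.Carayol

end
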