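import Fermat.Agent.Carayol.Algebra.Surface

/-!
# Roots up to units and regularity of the branches at a point of an arithmetic surface
-/

set_option autoImplicit false
set_option linter.unusedSectionVars false
set_option linter.style.haveILetI false

noncomputable section

namespace FA.Carayol.SurfPt

open Polynomial

variable {O F : Type} [CommRing O] [IsDomain O] [Field F]
variable {φ : O[X] →+* F} {ϖ : O} {B : Subring F} {p : Ideal B} {ι : Type} (S : SurfPt φ ϖ B p ι)
include S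

/-- **The components are regular at the point.** -/
theorem branch (i : ι) {x : F} (hx : x ∈ S.W i) :
    (∃ a c : B, c ∉ p ∧ (S.W i).valuation (x * c - (a : F)) < 1) ∨
      ∃ a c : B, a ∈ p ∧ c ∉ p ∧ (S.W i).valuation (x * a - (c : F)) < 1 := by
  obtain ⟨a, c, hc, h⟩ := S.exists_frac_branch i hx
  set v := (S.W i).valuation
  by_cases ha : a ∈ S.ctr i
  · refine Or.inl ⟨0, 1, fun h1 => S.maximal.ne_top ((Ideal.eq_top_iff_one _).2 h1), ?_⟩
    have h1 := congrArg v h
    rw [map_mul, S.val_eq_one_of_notMem hc, mul_one] at h1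
    simp only [OneMemClass.coe_one, mul_one, ZeroMemClass.coe_zero, sub_zero]
    rw [h1]; exact ha
  obtain ⟨j, s, w, hs, hw, hja⟩ := S.regular i a (S.val_eq_one_of_notMem ha)
  obtain ⟨k, s', w', hs', hw', hkc⟩ := S.regular i c (S.val_eq_one_of_notMem hc)
  have hπ : ∀ e : ℕ, v ((S.par i : F) ^ e) = 1 := fun e => by
    rw [map_pow, S.par_unit, one_pow]
  have hle : ∀ b : B, v (b : F) ≤ 1 := fun b =>
    (ValuationSubring.valuation_le_one_iff _ _).2 (S.mem_of_vert (S.vert i) b.2)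
  have hx1 : v x ≤ 1 := (ValuationSubring.valuation_le_one_iff _ _).2 hx
  have key : v (x * ((S.par i : F) ^ k * w' * s) - (S.par i : F) ^ j * w * s') < 1 := by
    have e : x * ((S.par i : F) ^ k * w' * s) - (S.par i : F) ^ j * w * s' =
        ((a : F) * s - (S.par i : F) ^ j * w) * s' -
          x * ((c : F) * s' - (S.par i : F) ^ k * w') * s := by
      rw [← h]; ring
    rw [e]
    refine Valuation.map_sub_lt _ ?_ ?_
    · rw [map_mul]; exact lt_of_le_of_lt (mul_le_of_le_one_right' (hle s')) hja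
    · rw [map_mul, map_mul]
      exact lt_of_le_of_lt (mul_le_of_le_one_right' (hle s))
        (lt_of_le_of_lt (mul_le_of_le_one_left' hx1) hkc)
  rcases le_or_gt k j with hkj | hkj
  · refine Or.inl ⟨S.par i ^ (j - k) * w * s', w' * s, fun hh =>
      (S.maximal.isPrime.mem_or_mem hh).elim hw' hs, ?_⟩
    have e : x * ((S.par i : F) ^ k * w' * s) - (S.par i : F) ^ j * w * s' =
        (S.par i : F) ^ k * (x * ((w' : F) * s) - (S.par i : F) ^ (j - k) * w * s') := by
      have : (S.par i : F) ^ j = (S.par i : F) ^ k * (S.par i : F) ^ (j - k) := by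
        rw [← pow_add, Nat.add_sub_cancel' hkj]
      rw [this]; ring
    rw [e, map_mul, hπ, one_mul] at key
    push_cast
    exact key
  · refine Or.inr ⟨S.par i ^ (k - j) * w' * s, w * s', ?_, fun hh =>
      (S.maximal.isPrime.mem_or_mem hh).elim hw hs', ?_⟩
    · exact p.mul_mem_right _ (p.mul_mem_right _
        (Ideal.pow_mem_of_mem _ (S.par_mem i) _ (Nat.sub_pos_of_lt hkj)))
    · have e : x * ((S.par i : F) ^ k * w' * s) - (S.par i : F) ^ j * w * s' =
          (S.par i : F) ^ j * (x * ((S.par i : F) ^ (k - j) * w' * s) - (w : F) * s') := by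
        have : (S.par i : F) ^ k = (S.par i : F) ^ j * (S.par i : F) ^ (k - j) := by
          rw [← pow_add, Nat.add_sub_cancel' hkj.le]
        rw [this]; ring
      rw [e, map_mul, hπ, one_mul] at key
      push_cast
      exact key

/-- Every function is a fraction. -/
theorem exists_global_frac (g : F) : ∃ A D : S.R, D ≠ 0 ∧ g * (D : F) = A := by
  obtain ⟨i⟩ := S.exists_branch
  have key : ∀ x : F, x ∈ S.W i → ∃ A D : S.R, D ≠ 0 ∧ x * (D : F) = A := fun x hx => by
    obtain ⟨a, c, hc, h⟩ := S.exists_frac_branch i hx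
    refine ⟨algebraMap B S.R a, algebraMap B S.R c, fun h0 => hc ?_, h⟩
    have : c = 0 := Subtype.ext (congrArg Subtype.val h0 :)
    rw [this]; exact zero_mem _
  rcases (S.W i).mem_or_inv_mem g with h | h
  · exact key g h
  · obtain ⟨A, D, hD, hAD⟩ := key g⁻¹ h
    rcases eq_or_ne g 0 with rfl | hg
    · exact ⟨0, 1, one_ne_zero, by simp⟩
    refine ⟨D, A, fun hA => hD (Subtype.ext ?_), by rw [← hAD, ← mul_assoc, mul_inv_cancel₀ hg, one_mul]⟩
    rw [hA, ZeroMemClass.coe_zero, mul_eq_zero] at hAD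
    rw [hAD.resolve_left (inv_ne_zero hg)]
    rfl

/-- A prime element gives a valuation. -/
theorem exists_val_prime {ρ : S.R} (hρ : Prime ρ) : ∃ V : ValuationSubring F,
    S.R ≤ V.toSubring ∧ V.valuation (ρ : F) < 1 ∧
      (∀ g : F, g ≠ 0 → ∃ k : ℤ, V.valuation g = V.valuation (ρ : F) ^ k) ∧
      ∀ r : S.R, V.valuation (r : F) < 1 ↔ ρ ∣ r := by
  haveI := S.noethR
  haveI := (Ideal.span_singleton_prime hρ.ne_zero).2 hρ
  obtain ⟨V, hle, hV⟩ := S.exists_val (Ideal.span {ρ})
  have hiff : ∀ r : S.R, V.valuation (r : F) < 1 ↔ ρ ∣ r := fun r => by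
    rw [hV r, Ideal.mem_span_singleton]
  refine ⟨V, hle, (hiff ρ).2 dvd_rfl, fun g hg => ?_, hiff⟩
  have hval : ∀ r : S.R, r ≠ 0 → ∃ k : ℕ, V.valuation (r : F) = V.valuation (ρ : F) ^ k := by
    intro r hr
    obtain ⟨k, r', hr', rfl⟩ := WfDvdMonoid.max_power_factor hr hρ.irreducible
    refine ⟨k, ?_⟩
    rw [Subring.coe_mul, map_mul, SubmonoidClass.coe_pow, map_pow,
      le_antisymm ((ValuationSubring.valuation_le_one_iff _ _).2 (hle r'.2))
        (not_lt.1 fun h => hr' ((hiff r').1 h)), mul_one]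
  obtain ⟨A, D, hD, hgAD⟩ := S.exists_global_frac g
  have hA : A ≠ 0 := fun h0 => hg (by
    rw [h0, ZeroMemClass.coe_zero, mul_eq_zero] at hgAD
    exact hgAD.resolve_right fun h1 => hD (Subtype.ext h1))
  obtain ⟨i, hi⟩ := hval A hA
  obtain ⟨j, hj⟩ := hval D hD
  refine ⟨(i : ℤ) - j, ?_⟩
  have h1 := congrArg V.valuation hgAD
  rw [map_mul, hi, hj] at h1
  have h0 : V.valuation (ρ : F) ≠ 0 := (Valuation.ne_zero_iff _).2 fun h =>
    hρ.ne_zero (Subtype.ext h)
  rw [zpow_sub₀ h0, zpow_natCast, zpow_natCast, eq_div_iff (pow_ne_zero _ h0), h1]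

/-- **Divisible orders give a root up to a unit.** -/
theorem root {n : ℕ} (hn : n ≠ 0) {f : F} (hf : f ≠ 0)
    (hdiv : ∀ V : ValuationSubring F, (∀ x ∈ B, x ∈ V) →
      (V.valuation (φ (C ϖ)) = 1 ∨ IsVertV φ ϖ V) →
        ∃ g : F, g ≠ 0 ∧ V.valuation f = V.valuation g ^ n) :
    ∃ π : F, π ≠ 0 ∧ ∃ b c : B, b ∉ p ∧ c ∉ p ∧ f * c = π ^ n * b := by
  haveI := S.noethR
  haveI := S.factorial
  obtain ⟨A₀, D, hD, hAD⟩ := S.exists_global_frac f
  have hD' : (D : F) ≠ 0 := fun h => hD (Subtype.ext h)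
  obtain ⟨n', rfl⟩ := Nat.exists_eq_succ_of_ne_zero hn
  set x : S.R := A₀ * D ^ n'
  have hx : (x : F) = f * (D : F) ^ (n' + 1) := by
    simp only [x]; push_cast; rw [← hAD]; ring
  have hx0 : x ≠ 0 := fun h => by
    rw [h, ZeroMemClass.coe_zero] at hx
    exact mul_ne_zero hf (pow_ne_zero _ hD') hx.symm
  have hprime : ∀ ρ : S.R, Prime ρ → ∀ V : ValuationSubring F, S.R ≤ V.toSubring →
      (∀ r : S.R, V.valuation (r : F) < 1 ↔ ρ ∣ r) →
        V.valuation (φ (C ϖ)) = 1 ∨ IsVertV φ ϖ V := fun ρ hρ V hle hV => by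
    have hB : ∀ b : B, (b : F) ∈ V := fun b => hle (S.le_R b.2)
    rcases lt_or_eq_of_le ((ValuationSubring.valuation_le_one_iff _ _).2 (hB (S.toB (C ϖ)))) with
      h | h
    · refine Or.inr ?_
      set Q := (Ideal.span {ρ}).comap (algebraMap B S.R)
      haveI := (Ideal.span_singleton_prime hρ.ne_zero).2 hρ
      haveI hQ : Q.IsPrime := Ideal.comap_isPrime _ _
      have hmem : ∀ b : B, b ∈ Q ↔ V.valuation (b : F) < 1 := fun b => by
        rw [Ideal.mem_comap, Ideal.mem_span_singleton, ← hV]; rfl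
      have hQp : Q ≤ p := fun b hb => S.mem_max.1
        (IsLocalRing.le_maximalIdeal (‹(Ideal.span {ρ}).IsPrime›).ne_top hb)
      rcases S.gauss_or_eq hQ hQp ((hmem _).2 h) with hg | hg
      · exact ⟨h, fun P hP => le_antisymm
          ((ValuationSubring.valuation_le_one_iff _ _).2 (hB (S.toB P)))
          (not_lt.1 fun hlt => hg P hP ((hmem (S.toB P)).2 hlt))⟩
      · exfalso
        obtain ⟨i⟩ := S.exists_branch
        have htQ : S.t i ∈ Q := by rw [hg]; exact S.ctr_le i (S.t_mem_ctr i)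
        have hpQ : S.par i ∈ Q := by rw [hg]; exact S.par_mem i
        have h1 : ρ ∣ S.tR i := (hV _).1 ((hmem (S.t i)).1 htQ)
        have h2 : ρ ∣ S.parR i := (hV _).1 ((hmem (S.par i)).1 hpQ)
        have hne : S.tR i ≠ 0 := fun h0 => S.t_ne_zero i (congrArg Subtype.val h0)
        have htp : Prime (S.tR i) :=
          (Ideal.span_singleton_prime hne).1 (S.ctrR_eq i ▸ S.ctrR_isPrime i)
        obtain ⟨u, hu⟩ := (hρ.irreducible.associated_of_dvd htp.irreducible h1).symm.dvd
        obtain ⟨w, hw⟩ := h2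
        have h3 : (S.W i).valuation (S.parR i : F) < 1 := by
          have : S.parR i ∈ S.ctrR i := by
            rw [S.ctrR_eq i, Ideal.mem_span_singleton, hw, hu, mul_assoc]
            exact dvd_mul_right _ _
          exact this
        exact (ne_of_lt h3) (S.par_unit i)
    · exact Or.inl h
  suffices key : ∀ y : S.R, y ≠ 0 → (∀ ρ : S.R, Prime ρ → ∀ V : ValuationSubring F,
      S.R ≤ V.toSubring → (∀ r : S.R, V.valuation (r : F) < 1 ↔ ρ ∣ r) →
        ∃ g : F, g ≠ 0 ∧ V.valuation (y : F) = V.valuation g ^ (n' + 1)) →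
      ∃ z u : S.R, IsUnit u ∧ y = u * z ^ (n' + 1) by
    obtain ⟨z, u, hu, hy⟩ := key x hx0 fun ρ hρ V hle hV => by
      obtain ⟨g, hg, hfg⟩ := hdiv V (fun b hb => hle (S.le_R hb)) (hprime ρ hρ V hle hV)
      exact ⟨g * (D : F), mul_ne_zero hg hD', by rw [hx, map_mul, map_pow, hfg, map_mul, mul_pow]⟩
    obtain ⟨b, c, hc, hbc⟩ := S.exists_frac u
    have hb : b ∉ p := fun hb => by
      have he : u * algebraMap B S.R c = algebraMap B S.R b := Subtype.ext hbc
      exact (IsLocalRing.mem_maximalIdeal _).1 (S.mem_max.2 hb)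
        (he ▸ hu.mul (S.isUnit_algebraMap hc))
    have hxy : f * (D : F) ^ (n' + 1) = (u : F) * (z : F) ^ (n' + 1) := by rw [← hx, hy]; push_cast; rfl
    refine ⟨(z : F) / D, div_ne_zero (fun h0 => hx0 ?_) hD', b, c, hb, hc, ?_⟩
    · rw [hy, show z = 0 from Subtype.ext h0, zero_pow (Nat.succ_ne_zero n'), mul_zero]
    · rw [div_pow, ← hbc]
      field_simp
      simp only [Nat.succ_eq_add_one]
      linear_combination (c : F) * hxy
  intro y
  induction y using (wellFounded_dvdNotUnit (α := S.R)).induction with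
  | _ y ih =>
    intro hy0 hy
    by_cases hu : IsUnit y
    · exact ⟨1, y, hu, by rw [one_pow, mul_one]⟩
    obtain ⟨ρ, hρi, hρy⟩ := WfDvdMonoid.exists_irreducible_factor hu hy0
    have hρ : Prime ρ := UniqueFactorizationMonoid.irreducible_iff_prime.1 hρi
    obtain ⟨V, hle, hρlt, hk, hV⟩ := S.exists_val_prime hρ
    obtain ⟨g, hg, hyg⟩ := hy ρ hρ V hle hV
    obtain ⟨k, hgk⟩ := hk g hg
    have hρ0 : V.valuation (ρ : F) ≠ 0 := (Valuation.ne_zero_iff _).2 fun h =>
      hρ.ne_zero (Subtype.ext h)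
    have hg1 : V.valuation g < 1 := by
      by_contra hge
      exact ((hV y).2 hρy).not_ge (hyg ▸ one_le_pow_of_one_le' (not_lt.1 hge) _)
    have hk1 : 1 ≤ k := by
      by_contra hk0
      rw [hgk] at hg1
      exact hg1.not_ge (one_le_zpow_of_nonpos₀ (zero_lt_iff.2 hρ0) hρlt.le (by omega))
    have hdvd : ρ ^ (n' + 1) ∣ y := by
      by_contra hnd
      obtain ⟨e, y', hy', hye⟩ := WfDvdMonoid.max_power_factor hy0 hρi
      have he : e < n' + 1 := by
        by_contra hge
        exact hnd (hye ▸ (pow_dvd_pow ρ (not_lt.1 hge)).mul_right y')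
      have hv : V.valuation (y : F) = V.valuation (ρ : F) ^ (e : ℤ) := by
        rw [hye, Subring.coe_mul, map_mul, SubmonoidClass.coe_pow, map_pow, zpow_natCast,
          le_antisymm ((ValuationSubring.valuation_le_one_iff _ _).2 (hle y'.2))
            (not_lt.1 fun h => hy' ((hV y').1 h)), mul_one]
      rw [hyg, hgk, ← zpow_natCast, ← zpow_mul] at hv
      have h2 := zpow_right_injective₀ (zero_lt_iff.2 hρ0) hρlt.ne hv
      have h3 : (n' : ℤ) + 1 ≤ k * ((n' : ℤ) + 1) := le_mul_of_one_le_left (by omega) hk1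
      push_cast at h2
      omega
    obtain ⟨y', rfl⟩ := hdvd
    obtain ⟨z, u, hu', hz⟩ := ih y' ⟨fun h => hy0 (by rw [h, mul_zero]), ρ ^ (n' + 1),
      fun h => hρ.not_unit ((isUnit_pow_iff (Nat.succ_ne_zero n')).1 h), mul_comm _ _⟩
      (fun h => hy0 (by rw [h, mul_zero])) fun ρ' hρ' V' hle' hV' => by
        obtain ⟨g', hg', h⟩ := hy ρ' hρ' V' hle' hV'
        refine ⟨g' / (ρ : F), div_ne_zero hg' (fun h0 => hρ.ne_zero (Subtype.ext h0)), ?_⟩
        rw [Subring.coe_mul, map_mul, SubmonoidClass.coe_pow, map_pow] at h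
        rw [map_div₀, div_pow, ← h, mul_div_cancel_left₀ _
          (pow_ne_zero _ ((Valuation.ne_zero_iff _).2 fun h0 => hρ.ne_zero (Subtype.ext h0)))]
    exact ⟨ρ * z, u, hu', by rw [hz, mul_pow]; ring⟩

end FA.Carayol.SurfPt

end
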