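import Fermat.Agent.Carayol.Defs

/-!
# Elements unramified at every minimal prime generate radical ideals
-/

set_option autoImplicit false
set_option linter.style.haveILetI false
set_option linter.unusedSectionVars false

noncomputable section

namespace FA.Carayol

variable {R : Type} [CommRing R] [IsDomain R] [IsNoetherianRing R] [IsIntegrallyClosed R]

/-- The conductor of `c` into `(t)`. -/
def colonOf (t c : R) : Ideal R where
  carrier := {a | t ∣ a * c}
  add_mem' {a b} ha hb := by
    show t ∣ (a + b) * c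
    rw [add_mul]; exact dvd_add ha hb
  zero_mem' := by simp
  smul_mem' r a ha := by
    show t ∣ r • a * c
    rw [smul_eq_mul, mul_assoc]; exact ha.mul_left r

theorem mem_colonOf {t c a : R} : a ∈ colonOf t c ↔ t ∣ a * c := Iff.rfl

theorem colonOf_isPrime {t c : R} (hc : ¬ t ∣ c)
    (hmax : ∀ r, ¬ t ∣ r * c → colonOf t c ≤ colonOf t (r * c) → colonOf t (r * c) ≤ colonOf t c) :
    (colonOf t c).IsPrime := by
  refine Ideal.isPrime_iff.2 ⟨fun h => hc ?_, fun {a b} hab => ?_⟩
  · have : (1 : R) ∈ colonOf t c := h ▸ Submodule.mem_top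
    rwa [mem_colonOf, one_mul] at this
  by_cases ha : a ∈ colonOf t c
  · exact Or.inl ha
  refine Or.inr (hmax a ha (fun x hx => ?_) ?_)
  · rw [mem_colonOf] at hx ⊢
    rw [mul_left_comm]
    exact hx.mul_left a
  · rw [mem_colonOf] at hab ⊢
    rwa [← mul_assoc, mul_comm b a]

/-- In a normal domain a proper conductor is not stable under the fraction. -/
theorem exists_notMem_colon {t c : R} (ht : t ≠ 0) (hc : ¬ t ∣ c) :
    ∃ q ∈ colonOf t c, ∃ d, d ∉ colonOf t c ∧ q * c = t * d := by
  by_contra hno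
  push Not at hno
  set Fr := FractionRing R
  set φ := algebraMap R Fr
  have ht' : φ t ≠ 0 := (map_ne_zero_iff _ (IsFractionRing.injective R Fr)).2 ht
  set N : Submodule R Fr := Submodule.map (Algebra.linearMap R Fr) (colonOf t c)
  have htN : φ t ∈ N := ⟨t, show t ∣ t * c from dvd_mul_right t c, rfl⟩
  have hint : IsIntegral R (φ c / φ t) := by
    refine isIntegral_of_smul_mem_submodule N ?_
      ((IsNoetherian.noetherian (colonOf t c)).map _) _ ?_
    · exact fun h0 => ht' (by rw [h0, Submodule.mem_bot] at htN; exact htN)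
    · rintro _ ⟨a, ha, rfl⟩
      obtain ⟨e, he⟩ := mem_colonOf.1 ha
      refine ⟨e, by_contra fun h => hno a ha e h he, ?_⟩
      show φ e = φ c / φ t * φ a
      rw [div_mul_eq_mul_div, eq_div_iff ht', ← map_mul, ← map_mul]
      exact congrArg φ (by linear_combination -he)
  obtain ⟨y, hy⟩ := IsIntegrallyClosed.isIntegral_iff.1 hint
  refine hc ⟨y, IsFractionRing.injective R Fr ?_⟩
  rw [map_mul, hy, mul_div_cancel₀ _ ht']

/-- **Unramified at every minimal prime implies radical.** -/
theorem unramRadical : UnramRadical := by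
  intro R _ _ _ _ t ht hmin
  by_contra hrad
  obtain ⟨b, hb, hbn⟩ : ∃ b, b ∈ (Ideal.span {t}).radical ∧ b ∉ Ideal.span {t} :=
    SetLike.not_le_iff_exists.1 hrad
  rw [Ideal.mem_span_singleton] at hbn
  let S : Set (Ideal R) := {I | ∃ c ∈ (Ideal.span {t}).radical, ¬ t ∣ c ∧ I = colonOf t c}
  obtain ⟨_, ⟨c, hcrad, hc, rfl⟩, hmax⟩ :=
    set_has_maximal_iff_noetherian.2 inferInstance S ⟨_, b, hb, hbn, rfl⟩
  have hQ : (colonOf t c).IsPrime := colonOf_isPrime hc fun r hr hle =>
    ((eq_or_lt_of_le hle).resolve_right fun hlt =>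
      hmax _ ⟨r * c, Ideal.mul_mem_left _ r hcrad, hr, rfl⟩ hlt).ge
  haveI := hQ
  obtain ⟨q, hq, d, hd, hqd⟩ := exists_notMem_colon ht hc
  have htQ : t ∈ colonOf t c := show t ∣ t * c from dvd_mul_right t c
  have hprinc : ∀ a ∈ colonOf t c, ∃ e, a * d = q * e := fun a ha => by
    obtain ⟨e, he⟩ := mem_colonOf.1 ha
    exact ⟨e, mul_left_cancel₀ ht (by linear_combination q * he - a * hqd)⟩
  have hminQ : colonOf t c ∈ (Ideal.span {t}).minimalPrimes := by
    refine ⟨⟨hQ, (Ideal.span_singleton_le_iff_mem _).2 htQ⟩, fun P ⟨hP, htP⟩ hPQ => ?_⟩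
    haveI := hP
    have htP' : t ∈ P := htP (Ideal.mem_span_singleton_self t)
    by_cases hqP : q ∈ P
    · intro a ha
      obtain ⟨e, he⟩ := hprinc a ha
      exact (hP.mem_or_mem (show a * d ∈ P from he ▸ P.mul_mem_right e hqP)).resolve_right
        fun h => hd (hPQ h)
    exfalso
    have step : ∀ x : P, ∃ x' : P, (x : R) * d = q * (x' : R) := fun x => by
      obtain ⟨e, he⟩ := hprinc x (hPQ x.2)
      refine ⟨⟨e, (hP.mem_or_mem (show q * e ∈ P from he ▸ P.mul_mem_right d x.2)).resolve_left
        hqP⟩, he⟩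
    choose f hf using step
    let s : ℕ → P := fun n => f^[n] ⟨t, htP'⟩
    have hs : ∀ n, (s n : R) * d = q * (s (n + 1) : R) := fun n => by
      show _ = q * ((f^[n + 1] _ : P) : R)
      rw [Function.iterate_succ_apply']
      exact hf _
    have hs0 : ∀ n, (s n : R) ≠ 0 := by
      intro n
      induction n with
      | zero => exact ht
      | succ n ih =>
        intro h0
        have := hs n
        rw [h0, mul_zero, mul_eq_zero] at this
        exact this.elim ih fun h => hd (h ▸ zero_mem _)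
    let J : ℕ →o Ideal R :=
      ⟨fun n =>
        { carrier := {y | ∃ r ∉ colonOf t c, (s n : R) ∣ r * y}
          add_mem' := fun {y y'} ⟨r, hr, h⟩ ⟨r', hr', h'⟩ =>
            ⟨r * r', fun hm => (hQ.mem_or_mem hm).elim hr hr', by
              rw [mul_add, mul_assoc r r' y, mul_left_comm r r' y, mul_assoc r r' y']
              exact dvd_add (h.mul_left r') (h'.mul_left r)⟩
          zero_mem' := ⟨d, hd, by simp⟩
          smul_mem' := fun z y ⟨r, hr, h⟩ => ⟨r, hr, by
            rw [smul_eq_mul, mul_left_comm]; exact h.mul_left z⟩ },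
      monotone_nat_of_le_succ fun n y ⟨r, hr, k, hk⟩ =>
        ⟨d * r, fun hm => (hQ.mem_or_mem hm).elim hd hr,
          q * k, by linear_combination d * hk + k * hs n⟩⟩
    obtain ⟨n, hn⟩ := monotone_stabilizes_iff_noetherian.2 inferInstance J
    have hmem : (s (n + 1) : R) ∈ J n := by
      rw [hn (n + 1) n.le_succ]
      exact ⟨d, hd, dvd_mul_left _ _⟩
    obtain ⟨r, hr, k, hk⟩ := hmem
    have h0 : (s n : R) * (r * d - q * k) = 0 := by linear_combination r * hs n + q * hk
    rcases mul_eq_zero.1 h0 with h | h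
    · exact hs0 n h
    · rw [sub_eq_zero] at h
      exact (hQ.mem_or_mem (show r * d ∈ colonOf t c from h ▸ Ideal.mul_mem_right k _ hq)).elim hr hd
  obtain ⟨σ, hσ, r, hr⟩ := hmin _ hminQ q hq
  have hcQ : c ∈ colonOf t c := by
    rw [← hQ.radical]
    exact Ideal.radical_mono ((Ideal.span_singleton_le_iff_mem _).2 htQ) hcrad
  have h1 : σ * d = r * c := mul_left_cancel₀ ht (by linear_combination c * hr - σ * hqd)
  exact (hQ.mem_or_mem (show σ * d ∈ colonOf t c from h1 ▸ Ideal.mul_mem_left _ r hcQ)).elim hσ hd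

end FA.Carayol

end
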